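import Mathlib

/-!
Analytic lemmas for the Galois-conjugation step of S23:
* a meromorphic quotient `Nm / D` which is integral over continuous functions is holomorphic;
* a root of a monic polynomial whose lower coefficients tend to `0` tends to `0`.
-/

namespace Fermat.Agent.S23Lib.Removable

open Filter Topology Set Function

/-- Cauchy-type bound: a root of a monic polynomial whose lower coefficients are small is small. -/
theorem norm_le_of_monic_rel {u : ℂ} {d : ℕ} (hd : 0 < d) (c : ℕ → ℂ) {ε : ℝ} (hε : 0 < ε)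
    (hc : ∀ j < d, ‖c j‖ ≤ ε ^ (d - j) / (2 * d))
    (hrel : u ^ d + ∑ j ∈ Finset.range d, c j * u ^ j = 0) : ‖u‖ ≤ ε := by
  by_contra hlt
  push Not at hlt
  have hu0 : 0 < ‖u‖ := lt_trans hε hlt
  have hdpos : (0 : ℝ) < d := by exact_mod_cast hd
  have h1 : u ^ d = - ∑ j ∈ Finset.range d, c j * u ^ j := eq_neg_of_add_eq_zero_left hrel
  have h2 : ‖u‖ ^ d ≤ ∑ j ∈ Finset.range d, ‖u‖ ^ d / (2 * d) := by
    calc ‖u‖ ^ d = ‖u ^ d‖ := (norm_pow u d).symm
      _ = ‖∑ j ∈ Finset.range d, c j * u ^ j‖ := by rw [h1, norm_neg]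
      _ ≤ ∑ j ∈ Finset.range d, ‖c j * u ^ j‖ := norm_sum_le _ _
      _ ≤ ∑ j ∈ Finset.range d, ‖u‖ ^ d / (2 * d) := by
        apply Finset.sum_le_sum
        intro j hj
        have hj' : j < d := Finset.mem_range.mp hj
        rw [norm_mul, norm_pow]
        have h3 : ε ^ (d - j) ≤ ‖u‖ ^ (d - j) := pow_le_pow_left₀ hε.le hlt.le _
        have h4 : ‖c j‖ ≤ ‖u‖ ^ (d - j) / (2 * d) :=
          (hc j hj').trans (by gcongr)
        calc ‖c j‖ * ‖u‖ ^ j ≤ ‖u‖ ^ (d - j) / (2 * d) * ‖u‖ ^ j := by gcongr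
          _ = ‖u‖ ^ d / (2 * d) := by
            rw [div_mul_eq_mul_div, ← pow_add, Nat.sub_add_cancel hj'.le]
  rw [Finset.sum_const, Finset.card_range, nsmul_eq_mul] at h2
  have h5 : (d : ℝ) * (‖u‖ ^ d / (2 * d)) = ‖u‖ ^ d / 2 := by
    field_simp
  rw [h5] at h2
  have h6 : 0 < ‖u‖ ^ d := pow_pos hu0 d
  linarith

/-- A root of a monic polynomial whose lower coefficients tend to `0` tends to `0`. -/
theorem tendsto_zero_of_monic_rel {α : Type*} {l : Filter α} (u : α → ℂ) (d : ℕ) (hd : 0 < d)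
    (c : ℕ → α → ℂ) (hc : ∀ j < d, Tendsto (c j) l (𝓝 0))
    (hrel : ∀ᶠ a in l, u a ^ d + ∑ j ∈ Finset.range d, c j a * u a ^ j = 0) :
    Tendsto u l (𝓝 0) := by
  rw [tendsto_zero_iff_norm_tendsto_zero]
  rw [Metric.tendsto_nhds]
  intro ε hε
  have hε2 : 0 < ε / 2 := by positivity
  have hdpos : (0 : ℝ) < d := by exact_mod_cast hd
  have hev : ∀ᶠ a in l, ∀ j ∈ Finset.range d, ‖c j a‖ ≤ (ε / 2) ^ (d - j) / (2 * d) := by
    rw [Filter.eventually_all_finset]
    intro j hj
    have hj' : j < d := Finset.mem_range.mp hj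
    have hpos : 0 < (ε / 2) ^ (d - j) / (2 * d) := by positivity
    have := (hc j hj').norm
    rw [norm_zero] at this
    exact (this.eventually (gt_mem_nhds hpos)).mono fun a ha => ha.le
  filter_upwards [hev, hrel] with a ha hr
  have := norm_le_of_monic_rel hd (fun j => c j a) hε2
    (fun j hj => ha j (Finset.mem_range.mpr hj)) hr
  simp only [dist_zero_right, norm_norm]
  linarith

/-- Crude Cauchy bound for a root of a monic polynomial. -/
theorem norm_le_max_of_monic_rel {u : ℂ} {d : ℕ} (c : ℕ → ℂ)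
    (hrel : u ^ d + ∑ j ∈ Finset.range d, c j * u ^ j = 0) :
    ‖u‖ ≤ max 1 (∑ j ∈ Finset.range d, ‖c j‖) := by
  by_contra hlt
  push Not at hlt
  have h1lt : 1 < ‖u‖ := lt_of_le_of_lt (le_max_left _ _) hlt
  have hSlt : ∑ j ∈ Finset.range d, ‖c j‖ < ‖u‖ := lt_of_le_of_lt (le_max_right _ _) hlt
  have hu0 : 0 < ‖u‖ := lt_trans zero_lt_one h1lt
  rcases Nat.eq_zero_or_pos d with hd | hd
  · subst hd
    simp at hrel
  have h1 : u ^ d = - ∑ j ∈ Finset.range d, c j * u ^ j := eq_neg_of_add_eq_zero_left hrel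
  have h2 : ‖u‖ ^ d ≤ (∑ j ∈ Finset.range d, ‖c j‖) * ‖u‖ ^ (d - 1) := by
    calc ‖u‖ ^ d = ‖u ^ d‖ := (norm_pow u d).symm
      _ = ‖∑ j ∈ Finset.range d, c j * u ^ j‖ := by rw [h1, norm_neg]
      _ ≤ ∑ j ∈ Finset.range d, ‖c j * u ^ j‖ := norm_sum_le _ _
      _ ≤ ∑ j ∈ Finset.range d, ‖c j‖ * ‖u‖ ^ (d - 1) := by
        apply Finset.sum_le_sum
        intro j hj
        have hj' : j < d := Finset.mem_range.mp hj
        rw [norm_mul, norm_pow]
        have : ‖u‖ ^ j ≤ ‖u‖ ^ (d - 1) := pow_le_pow_right₀ h1lt.le (by omega)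
        gcongr
      _ = (∑ j ∈ Finset.range d, ‖c j‖) * ‖u‖ ^ (d - 1) := by rw [Finset.sum_mul]
  have h3 : ‖u‖ ^ d = ‖u‖ * ‖u‖ ^ (d - 1) := by
    rw [← pow_succ', Nat.sub_add_cancel hd]
  rw [h3] at h2
  have h4 : 0 < ‖u‖ ^ (d - 1) := pow_pos hu0 _
  have := le_of_mul_le_mul_right h2 h4
  linarith

/-- If `Nm / D` (with `Nm`, `D` holomorphic on a connected open set, `D ≢ 0`) satisfies a monic
polynomial relation with continuous coefficients, then `Nm / D` extends to a holomorphic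
function on `U`, which satisfies the same relation. -/
theorem exists_differentiableOn_quotient {U : Set ℂ} (hU : IsOpen U) (hUc : IsPreconnected U)
    {Nm D : ℂ → ℂ} (hN : DifferentiableOn ℂ Nm U) (hD : DifferentiableOn ℂ D U)
    (hD0 : ∃ z ∈ U, D z ≠ 0) (d : ℕ) (c : ℕ → ℂ → ℂ) (hc : ∀ j, ContinuousOn (c j) U)
    (hrel : ∀ z ∈ U, Nm z ^ d + ∑ j ∈ Finset.range d, c j z * Nm z ^ j * D z ^ (d - j) = 0) :
    ∃ g : ℂ → ℂ, DifferentiableOn ℂ g U ∧ (∀ z ∈ U, g z * D z = Nm z) ∧
      (∀ z ∈ U, g z ^ d + ∑ j ∈ Finset.range d, c j z * g z ^ j = 0) := by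
  classical
  -- `d ≠ 0`
  have hd : 0 < d := by
    rcases Nat.eq_zero_or_pos d with hd | hd
    · subst hd
      obtain ⟨z, hz, -⟩ := hD0
      have := hrel z hz
      simp at this
    · exact hd
  -- zeros of `D` are isolated
  have hDan : AnalyticOnNhd ℂ D U := hD.analyticOnNhd hU
  have hiso : ∀ z₀ ∈ U, ∀ᶠ z in 𝓝[≠] z₀, D z ≠ 0 := by
    intro z₀ hz₀
    by_contra hcon
    rw [Filter.not_eventually] at hcon
    have hfreq : ∃ᶠ z in 𝓝[≠] z₀, D z = 0 := hcon.mono fun z hz => not_not.mp hz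
    have := hDan.eqOn_zero_of_preconnected_of_frequently_eq_zero hUc hz₀ hfreq
    obtain ⟨z, hz, hz'⟩ := hD0
    exact hz' (this hz)
  let u : ℂ → ℂ := fun z => Nm z / D z
  -- the relation for `u` away from the zeros of `D`
  have hrelu : ∀ z ∈ U, D z ≠ 0 → u z ^ d + ∑ j ∈ Finset.range d, c j z * u z ^ j = 0 := by
    intro z hz hDz
    have h := hrel z hz
    have hDd : D z ^ d ≠ 0 := pow_ne_zero _ hDz
    have : (u z ^ d + ∑ j ∈ Finset.range d, c j z * u z ^ j) * D z ^ d = 0 := by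
      rw [add_mul, Finset.sum_mul, ← h]
      congr 1
      · simp only [u]
        rw [div_pow, div_mul_cancel₀ _ hDd]
      · apply Finset.sum_congr rfl
        intro j hj
        have hj' : j < d := Finset.mem_range.mp hj
        simp only [u]
        rw [div_pow]
        have : D z ^ d = D z ^ j * D z ^ (d - j) := by
          rw [← pow_add, Nat.add_sub_cancel' hj'.le]
        rw [this]
        field_simp
    exact (mul_eq_zero.mp this).resolve_right hDd
  let g : ℂ → ℂ := fun z => if D z = 0 then limUnder (𝓝[≠] z) u else u z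
  have hgu : ∀ z, D z ≠ 0 → g z = u z := fun z hz => by simp [g, hz]
  -- differentiability of `u` where `D ≠ 0`
  have hudiff : ∀ z ∈ U, D z ≠ 0 → DifferentiableAt ℂ u z := by
    intro z hz hDz
    exact ((hN z hz).differentiableAt (hU.mem_nhds hz)).div
      ((hD z hz).differentiableAt (hU.mem_nhds hz)) hDz
  -- local description of `g`
  have hlocal : ∀ z₀ ∈ U, ∃ s ∈ 𝓝 z₀, s ⊆ U ∧
      DifferentiableOn ℂ (update u z₀ (limUnder (𝓝[≠] z₀) u)) s ∧
      EqOn g (update u z₀ (limUnder (𝓝[≠] z₀) u)) s := by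
    intro z₀ hz₀
    -- a neighbourhood on which `D ≠ 0` off `z₀` and the `c j` are bounded
    have h1 : ∀ᶠ z in 𝓝 z₀, z ≠ z₀ → D z ≠ 0 := by
      have := hiso z₀ hz₀
      rw [eventually_nhdsWithin_iff] at this
      exact this
    have h2 : ∀ᶠ z in 𝓝 z₀, ∀ j ∈ Finset.range d, ‖c j z‖ ≤ ‖c j z₀‖ + 1 := by
      rw [Filter.eventually_all_finset]
      intro j _
      have hcont : ContinuousAt (c j) z₀ := (hc j).continuousAt (hU.mem_nhds hz₀)
      have := hcont.norm
      exact (this.eventually (gt_mem_nhds (lt_add_one _))).mono fun z hz => hz.le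
    have h3 : ∀ᶠ z in 𝓝 z₀, z ∈ U := hU.mem_nhds hz₀
    obtain ⟨s, hs, hsprop⟩ := ((h1.and h2).and h3).exists_mem
    have hsU : s ⊆ U := fun z hz => (hsprop z hz).2
    refine ⟨s, hs, hsU, ?_, ?_⟩
    · apply Complex.differentiableOn_update_limUnder_of_bddAbove hs
      · intro z hz
        have hzne : z ≠ z₀ := hz.2
        exact (hudiff z (hsU hz.1) ((hsprop z hz.1).1.1 hzne)).differentiableWithinAt
      · refine ⟨max 1 (∑ j ∈ Finset.range d, (‖c j z₀‖ + 1)), ?_⟩
        rintro _ ⟨z, hz, rfl⟩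
        have hzne : z ≠ z₀ := hz.2
        have hDz := (hsprop z hz.1).1.1 hzne
        have hb := norm_le_max_of_monic_rel (u := u z) (d := d) (fun j => c j z)
          (hrelu z (hsU hz.1) hDz)
        refine hb.trans (max_le_max le_rfl ?_)
        exact Finset.sum_le_sum fun j hj => (hsprop z hz.1).1.2 j hj
    · intro z hz
      by_cases hzz : z = z₀
      · subst hzz
        rw [update_self]
        by_cases hDz : D z = 0
        · simp [g, hDz]
        · rw [hgu z hDz]
          have hcont : ContinuousAt u z := (hudiff z hz₀ hDz).continuousAt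
          have : Tendsto u (𝓝[≠] z) (𝓝 (u z)) := hcont.tendsto.mono_left nhdsWithin_le_nhds
          exact this.limUnder_eq.symm
      · rw [update_of_ne hzz]
        exact hgu z ((hsprop z hz).1.1 hzz)
  have hgdiff : DifferentiableOn ℂ g U := by
    intro z₀ hz₀
    obtain ⟨s, hs, -, hdiff, heq⟩ := hlocal z₀ hz₀
    have h1 : DifferentiableAt ℂ (update u z₀ (limUnder (𝓝[≠] z₀) u)) z₀ :=
      (hdiff z₀ (mem_of_mem_nhds hs)).differentiableAt hs
    have h2 : g =ᶠ[𝓝 z₀] update u z₀ (limUnder (𝓝[≠] z₀) u) :=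
      Filter.eventuallyEq_of_mem hs heq
    exact (h2.differentiableAt_iff.mpr h1).differentiableWithinAt
  have hgrel : ∀ z ∈ U, g z ^ d + ∑ j ∈ Finset.range d, c j z * g z ^ j = 0 := by
    intro z₀ hz₀
    by_cases hDz : D z₀ = 0
    · -- continuity argument
      let F : ℂ → ℂ := fun z => g z ^ d + ∑ j ∈ Finset.range d, c j z * g z ^ j
      have hgcont : ContinuousAt g z₀ :=
        ((hgdiff z₀ hz₀).differentiableAt (hU.mem_nhds hz₀)).continuousAt
      have hFcont : ContinuousAt F z₀ := by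
        apply ContinuousAt.add (hgcont.pow d)
        apply tendsto_finsetSum
        intro j _
        exact ((hc j).continuousAt (hU.mem_nhds hz₀)).mul (hgcont.pow j)
      have hF0 : ∀ᶠ z in 𝓝[≠] z₀, F z = 0 := by
        have h3 : ∀ᶠ z in 𝓝[≠] z₀, z ∈ U := nhdsWithin_le_nhds (hU.mem_nhds hz₀)
        filter_upwards [hiso z₀ hz₀, h3] with z hz hzU
        simp only [F]
        rw [hgu z hz]
        exact hrelu z hzU hz
      have hlim1 : Tendsto F (𝓝[≠] z₀) (𝓝 (F z₀)) := hFcont.tendsto.mono_left nhdsWithin_le_nhds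
      have hlim2 : Tendsto F (𝓝[≠] z₀) (𝓝 0) :=
        tendsto_const_nhds.congr' (hF0.mono fun z hz => hz.symm)
      exact tendsto_nhds_unique hlim1 hlim2
    · rw [hgu z₀ hDz]
      exact hrelu z₀ hz₀ hDz
  refine ⟨g, hgdiff, ?_, hgrel⟩
  intro z hz
  by_cases hDz : D z = 0
  · have h := hrel z hz
    have hsum : ∑ j ∈ Finset.range d, c j z * Nm z ^ j * D z ^ (d - j) = 0 := by
      apply Finset.sum_eq_zero
      intro j hj
      have hj' : j < d := Finset.mem_range.mp hj
      rw [hDz, zero_pow (by omega), mul_zero]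
    rw [hsum, add_zero] at h
    have hNz : Nm z = 0 := pow_eq_zero_iff (by omega) |>.mp h
    rw [hDz, hNz, mul_zero]
  · rw [hgu z hDz]
    simp only [u]
    exact div_mul_cancel₀ _ hDz

end Fermat.Agent.S23Lib.Removable
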