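import Fermat.Agent.S23Lib.Sym
import Fermat.Agent.S23Lib.Removable

set_option autoImplicit false
set_option linter.unusedSectionVars false

noncomputable section

namespace Fermat.Agent.S23Lib.Conj

open UpperHalfPlane hiding I
open Filter Topology Complex Function Asymptotics
open scoped Real MatrixGroups ModularForm Manifold
open CongruenceSubgroup Matrix.SpecialLinearGroup
open Fermat.Agent.S23Lib

/-! ### Generalities on `q`-functions -/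

theorem qf_tendsto {f : ℍ → ℂ} (hf : QF f) :
    Tendsto f atImInfty (𝓝 ((qExpansion 1 f).coeff 0)) := by
  have h0 : (qExpansion 1 f).coeff 0 = cuspFunction 1 f 0 := by
    rw [qExpansion_coeff_zero one_pos hf.analyticAt hf.per,
      cuspFunction_apply_zero one_pos hf.analyticAt hf.per]
  rw [h0]
  have h1 : (cuspFunction 1 f ∘ fun τ : ℍ => Function.Periodic.qParam 1 τ : ℍ → ℂ) = f := by
    funext τ
    simpa using eq_cuspFunction τ one_ne_zero hf.per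
  have h2 := hf.analyticAt.continuousAt.tendsto.comp (qParam_tendsto_atImInfty one_pos)
  rw [h1] at h2
  exact h2

theorem qf_zero_iff {f : ℍ → ℂ} (hf : QF f) :
    IsZeroAtImInfty f ↔ (qExpansion 1 f).coeff 0 = 0 := by
  constructor
  · intro h
    rw [qExpansion_coeff_zero one_pos hf.analyticAt hf.per]
    exact h.valueAtInfty_eq_zero
  · intro h
    have := qf_tendsto hf
    rw [h] at this
    exact this

/-! ### Twists -/

/-- `g` is a `σ`-twist of `f`, both being `q`-functions. -/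
structure Tw (σ : ℂ →+* ℂ) (f g : ℍ → ℂ) : Prop where
  qf1 : QF f
  qf2 : QF g
  tw : qExpansion 1 g = (qExpansion 1 f).map σ

namespace Tw

variable {σ : ℂ →+* ℂ} {f g f' g' : ℍ → ℂ}

theorem add (h : Tw σ f g) (h' : Tw σ f' g') : Tw σ (f + f') (g + g') :=
  ⟨h.qf1.add h'.qf1, h.qf2.add h'.qf2, by
    rw [h.qf2.qExpansion_add h'.qf2, h.qf1.qExpansion_add h'.qf1, map_add, h.tw, h'.tw]⟩

theorem mul (h : Tw σ f g) (h' : Tw σ f' g') : Tw σ (f * f') (g * g') :=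
  ⟨h.qf1.mul h'.qf1, h.qf2.mul h'.qf2, by
    rw [h.qf2.qExpansion_mul h'.qf2, h.qf1.qExpansion_mul h'.qf1, map_mul, h.tw, h'.tw]⟩

theorem pow (h : Tw σ f g) (n : ℕ) : Tw σ (f ^ n) (g ^ n) :=
  ⟨h.qf1.pow n, h.qf2.pow n, by
    rw [h.qf2.qExpansion_pow, h.qf1.qExpansion_pow, map_pow, h.tw]⟩

theorem smul (c : ℂ) (hc : σ c = c) (h : Tw σ f g) : Tw σ (c • f) (c • g) :=
  ⟨h.qf1.smul c, h.qf2.smul c, by
    rw [h.qf2.qExpansion_smul, h.qf1.qExpansion_smul, h.tw]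
    ext n
    simp [hc]⟩

theorem sum {ι : Type*} (s : Finset ι) {F G : ι → ℍ → ℂ} (h : ∀ i ∈ s, Tw σ (F i) (G i)) :
    Tw σ (∑ i ∈ s, F i) (∑ i ∈ s, G i) :=
  ⟨QF.sum s fun i hi => (h i hi).qf1, QF.sum s fun i hi => (h i hi).qf2, by
    rw [QF.qExpansion_sum s fun i hi => (h i hi).qf2,
      QF.qExpansion_sum s fun i hi => (h i hi).qf1, map_sum]
    exact Finset.sum_congr rfl fun i hi => (h i hi).tw⟩

theorem zero_right (h : Tw σ 0 g) : g = 0 := by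
  refine h.qf2.eq_zero_of_qExpansion ?_
  rw [h.tw, qExpansion_zero, map_zero]

end Tw

/-! ### Invariance under a subgroup -/

/-- Weight `w` invariance under a subgroup of `SL(2, ℤ)`. -/
def Inv (Γ : Subgroup SL(2, ℤ)) (w : ℤ) (F : ℍ → ℂ) : Prop := ∀ γ ∈ Γ, F ∣[w] γ = F

theorem pow_slash_SL (F : ℍ → ℂ) (k : ℤ) (n : ℕ) (h : SL(2, ℤ)) :
    (F ^ n) ∣[(n : ℤ) * k] h = (F ∣[k] h) ^ n := by
  have := Sym.prod_slash_SL (Finset.range n) k (fun _ => F) h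
  simpa using this

namespace Inv

variable {Γ : Subgroup SL(2, ℤ)} {F G : ℍ → ℂ}

theorem mul {w1 w2 w : ℤ} (h1 : Inv Γ w1 F) (h2 : Inv Γ w2 G) (hw : w1 + w2 = w) :
    Inv Γ w (F * G) := by
  intro γ hγ
  rw [← hw, ModularForm.mul_slash_SL2, h1 γ hγ, h2 γ hγ]

theorem pow {k w : ℤ} (h : Inv Γ k F) (n : ℕ) (hw : (n : ℤ) * k = w) : Inv Γ w (F ^ n) := by
  intro γ hγ
  rw [← hw, pow_slash_SL, h γ hγ]

theorem smul {w : ℤ} (c : ℂ) (h : Inv Γ w F) : Inv Γ w (c • F) := by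
  intro γ hγ
  rw [ModularForm.SL_smul_slash, h γ hγ]

theorem sum {ι : Type*} {w : ℤ} (s : Finset ι) {F : ι → ℍ → ℂ} (h : ∀ i ∈ s, Inv Γ w (F i)) :
    Inv Γ w (∑ i ∈ s, F i) := by
  intro γ hγ
  rw [SlashAction.sum_slash]
  exact Finset.sum_congr rfl fun i hi => h i hi γ hγ

end Inv

theorem inv_levelOne (Γ : Subgroup SL(2, ℤ)) {k : ℤ} (φ : ModularForm 𝒮ℒ k) : Inv Γ k ⇑φ := by
  intro γ _
  exact SlashInvariantFormClass.slash_action_eq φ _ ⟨γ, rfl⟩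

/-! ### The polynomial combinations -/

/-- `∑_{j<d} (-1)^j • (F j * B^(d-1-j))`. -/
def comb (d : ℕ) (F : ℕ → ℍ → ℂ) (B : ℍ → ℂ) : ℍ → ℂ :=
  ∑ j ∈ Finset.range d, ((-1 : ℂ) ^ j) • (F j * B ^ (d - 1 - j))

/-- `Nm^d + ∑_{i<d} (-1)^(d-i) • (c (d-i) * Nm^i * D^(d-i))`. -/
def rel (d : ℕ) (c : ℕ → ℍ → ℂ) (Nm D : ℍ → ℂ) : ℍ → ℂ :=
  Nm ^ d + ∑ i ∈ Finset.range d, ((-1 : ℂ) ^ (d - i)) • (c (d - i) * Nm ^ i * D ^ (d - i))

theorem comb_apply (d : ℕ) (F : ℕ → ℍ → ℂ) (B : ℍ → ℂ) (z : ℍ) :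
    comb d F B z = ∑ j ∈ Finset.range d, (-1 : ℂ) ^ j * (F j z * B z ^ (d - 1 - j)) := by
  simp [comb, Finset.sum_apply]

theorem rel_apply (d : ℕ) (c : ℕ → ℍ → ℂ) (Nm D : ℍ → ℂ) (z : ℍ) :
    rel d c Nm D z = Nm z ^ d + ∑ i ∈ Finset.range d,
      (-1 : ℂ) ^ (d - i) * (c (d - i) z * Nm z ^ i * D z ^ (d - i)) := by
  simp [rel, Finset.sum_apply]

theorem rel_mul (d : ℕ) (c : ℕ → ℍ → ℂ) (f D : ℍ → ℂ) :
    rel d c (f * D) D = rel d c f 1 * D ^ d := by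
  funext z
  rw [Pi.mul_apply, rel_apply, rel_apply, add_mul, Finset.sum_mul]
  simp only [Pi.mul_apply, Pi.one_apply, Pi.pow_apply, one_pow, mul_one]
  congr 1
  · ring
  · refine Finset.sum_congr rfl fun i hi => ?_
    have hi' : i ≤ d := (Finset.mem_range.mp hi).le
    have : D z ^ d = D z ^ i * D z ^ (d - i) := by rw [← pow_add]; congr 1; omega
    rw [this]; ring

theorem neg_one_pow_fixed (σ : ℂ →+* ℂ) (n : ℕ) : σ ((-1 : ℂ) ^ n) = (-1 : ℂ) ^ n := by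
  simp

theorem Tw.comb {σ : ℂ →+* ℂ} {d : ℕ} {F Fs : ℕ → ℍ → ℂ} {B Bs : ℍ → ℂ}
    (hF : ∀ j, Tw σ (F j) (Fs j)) (hB : Tw σ B Bs) : Tw σ (comb d F B) (comb d Fs Bs) :=
  Tw.sum _ fun j _ => ((hF j).mul (hB.pow _)).smul _ (neg_one_pow_fixed σ j)

theorem Tw.rel {σ : ℂ →+* ℂ} {d : ℕ} {c cs : ℕ → ℍ → ℂ} {Nm Nms D Ds : ℍ → ℂ}
    (hc : ∀ j, Tw σ (c j) (cs j)) (hN : Tw σ Nm Nms) (hD : Tw σ D Ds) :
    Tw σ (rel d c Nm D) (rel d cs Nms Ds) :=
  (hN.pow d).add (Tw.sum _ fun i _ =>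
    (((hc (d - i)).mul (hN.pow i)).mul (hD.pow (d - i))).smul _ (neg_one_pow_fixed σ _))

theorem Inv.comb {Γ : Subgroup SL(2, ℤ)} {d : ℕ} {F : ℕ → ℍ → ℂ} {B : ℍ → ℂ} {w0 kB w : ℤ}
    (hF : ∀ j : ℕ, Inv Γ (w0 + (j : ℤ) * kB) (F j)) (hB : Inv Γ kB B)
    (hw : w0 + ((d - 1 : ℕ) : ℤ) * kB = w) : Inv Γ w (comb d F B) := by
  refine Inv.sum _ fun j hj => Inv.smul _ ((hF j).mul (hB.pow (d - 1 - j) rfl) ?_)
  have hj' : j < d := Finset.mem_range.mp hj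
  rw [← hw]
  have : ((d - 1 : ℕ) : ℤ) = ((d - 1 - j : ℕ) : ℤ) + (j : ℤ) := by
    have : d - 1 = (d - 1 - j) + j := by omega
    exact_mod_cast this
  rw [this]; ring

theorem comb_mdiff {d : ℕ} {F : ℕ → ℍ → ℂ} {B : ℍ → ℂ} (hF : ∀ j, MDiff (F j)) (hB : MDiff B) :
    MDiff (comb d F B) := by
  refine Sym.mdiff_sum _ fun j _ => ?_
  have h1 : MDiff (F j * B ^ (d - 1 - j)) := (hF j).mul (hB.pow _)
  have h2 : ((-1 : ℂ) ^ j) • (F j * B ^ (d - 1 - j)) =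
      (fun _ : ℍ => (-1 : ℂ) ^ j) * (F j * B ^ (d - 1 - j)) := by
    funext z; simp
  rw [h2]
  exact mdifferentiable_const.mul h1

/-! ### Packaging forms for `Γ₀(N)` -/

/-- Package a `Γ₀(N)`-invariant holomorphic function vanishing at all cusps as a cusp form. -/
def mkCusp (N : ℕ) [NeZero N] (F : ℍ → ℂ) (w : ℤ) (hinv : Inv (Gamma0 N) w F) (hhol : MDiff F)
    (hzero : ∀ γ : SL(2, ℤ), IsZeroAtImInfty (F ∣[w] γ)) : CuspForm (Gamma0 N) w where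
  toFun := F
  slash_action_eq' := by
    rintro _ ⟨γ, hγ, rfl⟩
    exact hinv γ hγ
  holo' := hhol
  zero_at_cusps' := by
    intro c hc
    rw [Subgroup.IsArithmetic.isCusp_iff_isCusp_SL2Z, isCusp_SL2Z_iff'] at hc
    obtain ⟨g, rfl⟩ := hc
    rw [OnePoint.IsZeroAt.smul_iff, OnePoint.isZeroAt_infty_iff]
    exact hzero g

@[simp] theorem coe_mkCusp (N : ℕ) [NeZero N] (F : ℍ → ℂ) (w : ℤ) (hinv : Inv (Gamma0 N) w F)
    (hhol : MDiff F) (hzero : ∀ γ : SL(2, ℤ), IsZeroAtImInfty (F ∣[w] γ)) :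
    ⇑(mkCusp N F w hinv hhol hzero) = F := rfl

/-- Package a `Γ₀(N)`-invariant holomorphic function bounded at all cusps as a modular form. -/
def mkMF (N : ℕ) [NeZero N] (F : ℍ → ℂ) (w : ℤ) (hinv : Inv (Gamma0 N) w F) (hhol : MDiff F)
    (hbdd : ∀ γ : SL(2, ℤ), IsBoundedAtImInfty (F ∣[w] γ)) : ModularForm (Gamma0 N) w where
  toFun := F
  slash_action_eq' := by
    rintro _ ⟨γ, hγ, rfl⟩
    exact hinv γ hγ
  holo' := hhol
  bdd_at_cusps' := by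
    intro c hc
    rw [Subgroup.IsArithmetic.isCusp_iff_isCusp_SL2Z, isCusp_SL2Z_iff'] at hc
    obtain ⟨g, rfl⟩ := hc
    rw [OnePoint.IsBoundedAt.smul_iff, OnePoint.isBoundedAt_infty_iff]
    exact hbdd g

@[simp] theorem coe_mkMF (N : ℕ) [NeZero N] (F : ℍ → ℂ) (w : ℤ) (hinv : Inv (Gamma0 N) w F)
    (hhol : MDiff F) (hbdd : ∀ γ : SL(2, ℤ), IsBoundedAtImInfty (F ∣[w] γ)) :
    ⇑(mkMF N F w hinv hhol hbdd) = F := rfl

/-! ### The analytic quotient on `ℍ` -/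

theorem exists_quotient {Nm D : ℍ → ℂ} (hN : MDiff Nm) (hD : MDiff D) (hD0 : D ≠ 0) (d : ℕ)
    (e : ℕ → ℍ → ℂ) (he : ∀ i, MDiff (e i))
    (hrel : ∀ z, Nm z ^ d + ∑ i ∈ Finset.range d, e i z * Nm z ^ i * D z ^ (d - i) = 0) :
    ∃ g : ℍ → ℂ, MDiff g ∧ g * D = Nm ∧
      ∀ z, g z ^ d + ∑ i ∈ Finset.range d, e i z * g z ^ i = 0 := by
  have hU : IsOpen {z : ℂ | 0 < z.im} := isOpen_upperHalfPlaneSet
  have hUc : IsPreconnected {z : ℂ | 0 < z.im} :=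
    (Complex.isConnected_of_upperHalfPlane subset_rfl (by grind)).isPreconnected
  rw [UpperHalfPlane.mdifferentiable_iff] at hN hD
  have he' : ∀ i, ContinuousOn (e i ∘ ofComplex) {z : ℂ | 0 < z.im} :=
    fun i => (UpperHalfPlane.mdifferentiable_iff.mp (he i)).continuousOn
  obtain ⟨z0, hz0⟩ : ∃ z, D z ≠ 0 := by
    by_contra h
    push Not at h
    exact hD0 (funext h)
  obtain ⟨g, hg, hgD, hgrel⟩ := Removable.exists_differentiableOn_quotient hU hUc hN hD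
    ⟨(z0 : ℂ), z0.im_pos, by simpa [ofComplex_apply] using hz0⟩ d (fun i => e i ∘ ofComplex) he'
    (by intro z hz; simpa using hrel (ofComplex z))
  refine ⟨fun τ => g τ, ?_, ?_, ?_⟩
  · rw [UpperHalfPlane.mdifferentiable_iff]
    refine hg.congr fun z hz => ?_
    simp [ofComplex_apply_of_im_pos hz]
  · funext τ
    simpa [ofComplex_apply] using hgD τ τ.im_pos
  · intro τ
    simpa [ofComplex_apply] using hgrel τ τ.im_pos

theorem inv_of_mul {Γ : Subgroup SL(2, ℤ)} {g D Nm : ℍ → ℂ} {w k : ℤ} (hg : MDiff g)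
    (hDhol : MDiff D) (hD0 : D ≠ 0) (hgD : g * D = Nm) (hD : Inv Γ w D)
    (hN : Inv Γ (k + w) Nm) : Inv Γ k g := by
  intro γ hγ
  have h1 : (g ∣[k] γ) * D = g * D := by
    have := hN γ hγ
    rw [← hgD, ModularForm.mul_slash_SL2, hD γ hγ] at this
    exact this
  have h2 : (g ∣[k] γ - g) * D = 0 := by rw [sub_mul, h1, sub_self]
  have h3 : MDiff (g ∣[k] γ) := hg.slash k (γ : GL (Fin 2) ℝ)
  rcases (UpperHalfPlane.mul_eq_zero_iff (h3.sub hg) hDhol).mp h2 with h | h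
  · exact sub_eq_zero.mp h
  · exact absurd h hD0

theorem zero_at_cusps_of_rel {g : ℍ → ℂ} (d : ℕ) (hd : 0 < d) (e : ℕ → ℍ → ℂ)
    (hinv : ∀ i < d, ∀ γ : SL(2, ℤ), e i ∣[((d - i : ℕ) : ℤ) * 2] γ = e i)
    (hzero : ∀ i < d, IsZeroAtImInfty (e i))
    (hrel : ∀ z, g z ^ d + ∑ i ∈ Finset.range d, e i z * g z ^ i = 0) (γ : SL(2, ℤ)) :
    IsZeroAtImInfty (g ∣[(2 : ℤ)] γ) := by
  refine Removable.tendsto_zero_of_monic_rel _ d hd e hzero
    (Filter.Eventually.of_forall fun z => ?_)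
  set J : ℂ := denom γ z ^ (-(2 : ℤ)) with hJ
  have h1 : (g ∣[(2 : ℤ)] γ) z = g (γ • z) * J := ModularForm.SL_slash_apply _ γ z
  have h2 : ∀ i < d, e i (γ • z) * J ^ (d - i) = e i z := by
    intro i hi
    have := congrFun (hinv i hi γ) z
    rw [ModularForm.SL_slash_apply] at this
    rw [← this]
    congr 1
    rw [hJ, ← zpow_natCast, ← zpow_mul]
    congr 1
    ring
  have h3 := hrel (γ • z)
  have h4 : (g (γ • z) * J) ^ d + ∑ i ∈ Finset.range d, e i z * (g (γ • z) * J) ^ i =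
      (g (γ • z) ^ d + ∑ i ∈ Finset.range d, e i (γ • z) * g (γ • z) ^ i) * J ^ d := by
    rw [add_mul, Finset.sum_mul, mul_pow]
    congr 1
    refine Finset.sum_congr rfl fun i hi => ?_
    have hi' := Finset.mem_range.mp hi
    rw [← h2 i hi', mul_pow]
    have : J ^ d = J ^ (d - i) * J ^ i := by rw [← pow_add]; congr 1; omega
    rw [this]; ring
  rw [h1, h4, h3, zero_mul]

/-! ### The level one data attached to a cusp form and a primitive function -/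

theorem reindex (d : ℕ) (E : ℕ → ℂ) (hE : E 0 = 1) (x : ℂ) :
    ∑ j ∈ Finset.range (d + 1), (-1 : ℂ) ^ j * (E j * x ^ (d - j)) =
      x ^ d + ∑ i ∈ Finset.range d, (-1 : ℂ) ^ (d - i) * (E (d - i) * x ^ i * 1 ^ (d - i)) := by
  rw [Finset.sum_range_succ', ← Finset.sum_range_reflect]
  simp only [pow_zero, hE, one_mul, Nat.sub_zero, one_pow, mul_one]
  rw [add_comm]
  congr 1
  refine Finset.sum_congr rfl fun i hi => ?_
  have hi' := Finset.mem_range.mp hi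
  have h1 : d - 1 - i + 1 = d - i := by omega
  have h2 : d - (d - i) = i := by omega
  rw [h1, h2]

theorem exists_data (N : ℕ) [NeZero N] (B : ℍ → ℂ) (hBinv : Inv (Gamma0 N) 12 B)
    (hBhol : MDiff B) (hBbdd : ∀ γ : SL(2, ℤ), IsBoundedAtImInfty (B ∣[(12 : ℤ)] γ))
    (hBne : ∀ γ : SL(2, ℤ), γ ∉ Gamma0 N → B ∣[(12 : ℤ)] γ ≠ B)
    (f : CuspForm (Gamma0 N) 2) :
    ∃ (d : ℕ) (c : (j : ℕ) → ModularForm 𝒮ℒ ((j : ℤ) * 2))
      (G : (j : ℕ) → ModularForm 𝒮ℒ (2 + (j : ℤ) * 12))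
      (H : (j : ℕ) → ModularForm 𝒮ℒ (0 + (j : ℤ) * 12)),
      0 < d ∧ (∀ j, 1 ≤ j → IsZeroAtImInfty ⇑(c j)) ∧
      rel d (fun j => ⇑(c j)) ⇑f 1 = 0 ∧
      ⇑f * comb d (fun j => ⇑(H j)) B = comb d (fun j => ⇑(G j)) B ∧
      comb d (fun j => ⇑(H j)) B ≠ 0 := by
  classical
  have : Fintype (SL(2, ℤ) ⧸ Gamma0 N) := Fintype.ofFinite _
  have hfinv : ∀ γ ∈ Gamma0 N, ⇑f ∣[(2 : ℤ)] γ = ⇑f := fun γ hγ =>
    SlashInvariantFormClass.slash_action_eq f _ (Subgroup.mem_map_of_mem (mapGL ℝ) hγ)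
  set a : SL(2, ℤ) ⧸ Gamma0 N → ℍ → ℂ := Sym.tr ⇑f 2 hfinv with ha_def
  set b : SL(2, ℤ) ⧸ Gamma0 N → ℍ → ℂ := Sym.tr B 12 hBinv with hb_def
  have ha : Sym.Eqv 2 a := Sym.eqv_tr _ _ _
  have hb : Sym.Eqv 12 b := Sym.eqv_tr _ _ _
  have ha_hol : ∀ q, MDiff (a q) := by
    intro q
    induction q using QuotientGroup.induction_on with
    | H γ =>
      rw [ha_def, Sym.tr_mk]
      exact (ModularFormClass.holo f).slash 2 ((γ⁻¹ : SL(2, ℤ)) : GL (Fin 2) ℝ)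
  have ha_zero : ∀ q, IsZeroAtImInfty (a q) := by
    intro q
    induction q using QuotientGroup.induction_on with
    | H γ =>
      rw [ha_def, Sym.tr_mk]
      exact CuspFormClass.zero_at_infty_slash f γ⁻¹
  have hb_hol : ∀ q, MDiff (b q) := by
    intro q
    induction q using QuotientGroup.induction_on with
    | H γ =>
      rw [hb_def, Sym.tr_mk]
      exact hBhol.slash 12 ((γ⁻¹ : SL(2, ℤ)) : GL (Fin 2) ℝ)
  have hb_bdd : ∀ q, IsBoundedAtImInfty (b q) := by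
    intro q
    induction q using QuotientGroup.induction_on with
    | H γ =>
      rw [hb_def, Sym.tr_mk]
      exact hBbdd γ⁻¹
  have ha1 : a ((1 : SL(2, ℤ)) : SL(2, ℤ) ⧸ Gamma0 N) = ⇑f := Sym.tr_one _ _ _
  have hb1 : b ((1 : SL(2, ℤ)) : SL(2, ℤ) ⧸ Gamma0 N) = B := Sym.tr_one _ _ _
  have hone_hol : ∀ _ : SL(2, ℤ) ⧸ Gamma0 N, MDiff (1 : ℍ → ℂ) := fun _ =>
    (mdifferentiable_const : MDiff (fun _ : ℍ => (1 : ℂ)))
  have hone_bdd : ∀ _ : SL(2, ℤ) ⧸ Gamma0 N, IsBoundedAtImInfty (1 : ℍ → ℂ) := fun _ =>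
    Filter.const_boundedAtFilter atImInfty (1 : ℂ)
  set d := Fintype.card (SL(2, ℤ) ⧸ Gamma0 N) with hd_def
  have hdpos : 0 < d := Fintype.card_pos_iff.mpr ⟨((1 : SL(2, ℤ)) : SL(2, ℤ) ⧸ Gamma0 N)⟩
  -- the common denominator as a product
  have hDprod : ∀ z : ℍ, comb d (fun j => Sym.psi j (fun _ => (1 : ℍ → ℂ)) b) B z =
      ∏ q ∈ (Finset.univ : Finset (SL(2, ℤ) ⧸ Gamma0 N)).erase
        ((1 : SL(2, ℤ)) : SL(2, ℤ) ⧸ Gamma0 N), (B z - b q z) := by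
    intro z
    have h := Sym.lagrange (fun _ => (1 : ℍ → ℂ)) b ((1 : SL(2, ℤ)) : SL(2, ℤ) ⧸ Gamma0 N) z
    rw [hb1] at h
    rw [comb_apply, ← h]
    simp
  refine ⟨d,
    fun j => Sym.mkLevelOne (Sym.esym j a) ((j : ℤ) * 2) (Sym.esym_slash ha j)
      (Sym.esym_mdiff ha_hol j) (Sym.esym_bdd (fun q => (ha_zero q).boundedAtFilter) j),
    fun j => Sym.mkLevelOne (Sym.psi j a b) (2 + (j : ℤ) * 12) (Sym.psi_slash ha hb j)
      (Sym.psi_mdiff ha_hol hb_hol j)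
      (Sym.psi_bdd (fun q => (ha_zero q).boundedAtFilter) hb_bdd j),
    fun j => Sym.mkLevelOne (Sym.psi j (fun _ => (1 : ℍ → ℂ)) b) (0 + (j : ℤ) * 12)
      (Sym.psi_slash Sym.eqv_one hb j) (Sym.psi_mdiff hone_hol hb_hol j)
      (Sym.psi_bdd hone_bdd hb_bdd j),
    hdpos, ?_, ?_, ?_, ?_⟩
  · intro j hj
    exact Sym.esym_zero ha_zero hj
  · funext z
    have h := Sym.root_rel a ((1 : SL(2, ℤ)) : SL(2, ℤ) ⧸ Gamma0 N) z
    rw [ha1] at h
    rw [reindex d (fun j => Sym.esym j a z) (by simp [Sym.esym_zero_eq]) (f z)] at h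
    rw [rel_apply]
    simpa using h
  · funext z
    have h := Sym.lagrange a b ((1 : SL(2, ℤ)) : SL(2, ℤ) ⧸ Gamma0 N) z
    rw [ha1, hb1] at h
    rw [Pi.mul_apply]
    simp only [Sym.coe_mkLevelOne]
    rw [hDprod z, h, comb_apply]
  · simp only [Sym.coe_mkLevelOne]
    intro h0
    have h1 : ∏ q ∈ (Finset.univ : Finset (SL(2, ℤ) ⧸ Gamma0 N)).erase
        ((1 : SL(2, ℤ)) : SL(2, ℤ) ⧸ Gamma0 N), (B - b q) = 0 := by
      funext z
      rw [Finset.prod_apply]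
      simp only [Pi.sub_apply, Pi.zero_apply]
      rw [← hDprod z, h0]
      rfl
    rw [UpperHalfPlane.prod_eq_zero_iff (fun q _ => hBhol.sub (hb_hol q))] at h1
    obtain ⟨q, hq, hq0⟩ := h1
    have hq1 : q ≠ ((1 : SL(2, ℤ)) : SL(2, ℤ) ⧸ Gamma0 N) := (Finset.mem_erase.mp hq).1
    induction q using QuotientGroup.induction_on with
    | H γ =>
      have h2 : B ∣[(12 : ℤ)] γ⁻¹ = B := by
        have := sub_eq_zero.mp hq0
        rw [hb_def, Sym.tr_mk] at this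
        exact this.symm
      have h3 : γ⁻¹ ∈ Gamma0 N := by
        by_contra hne
        exact hBne _ hne h2
      apply hq1
      rw [QuotientGroup.eq]
      simpa using h3

/-! ### Twisting the relation -/

theorem twist_rel (σ : ℂ →+* ℂ) {B : ℍ → ℂ} (hB : Tw σ B B)
    {f : ℍ → ℂ} (hf : QF f) (d : ℕ) {c cs G Gs H Hs : ℕ → ℍ → ℂ}
    (hc : ∀ j, Tw σ (c j) (cs j)) (hG : ∀ j, Tw σ (G j) (Gs j)) (hH : ∀ j, Tw σ (H j) (Hs j))
    (hrel : rel d c f 1 = 0) (hNm : f * comb d H B = comb d G B) (hD : comb d H B ≠ 0) :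
    rel d cs (comb d Gs B) (comb d Hs B) = 0 ∧
      qExpansion 1 (comb d Gs B) = (qExpansion 1 f).map σ * qExpansion 1 (comb d Hs B) ∧
      comb d Hs B ≠ 0 := by
  have hDt : Tw σ (comb d H B) (comb d Hs B) := Tw.comb hH hB
  have hNt : Tw σ (comb d G B) (comb d Gs B) := Tw.comb hG hB
  have hRt := Tw.rel (d := d) hc hNt hDt
  have h0 : rel d c (comb d G B) (comb d H B) = 0 := by rw [← hNm, rel_mul, hrel, zero_mul]
  rw [h0] at hRt
  refine ⟨hRt.zero_right, ?_, ?_⟩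
  · rw [hNt.tw, ← hNm, hf.qExpansion_mul hDt.qf1, map_mul, hDt.tw]
  · intro h
    apply hD
    refine hDt.qf1.eq_zero_of_qExpansion ?_
    have h1 := hDt.tw
    rw [h, qExpansion_zero] at h1
    ext n
    have h2 := congrArg (PowerSeries.coeff n) h1
    simp only [map_zero, PowerSeries.coeff_map] at h2
    have h3 : σ ((PowerSeries.coeff n) (qExpansion 1 (comb d H B))) = σ 0 := by
      rw [map_zero]; exact h2.symm
    simpa using σ.injective h3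

/-! ### The main theorem -/

/-- Galois conjugation of cusp forms of weight two for `Γ₀(N)`, given a "primitive" weight `12`
function `B` with `σ`-fixed `q`-expansion and the level one statement. -/
theorem exists_twist_of_primitive (N : ℕ) [NeZero N] (σ : ℂ ≃+* ℂ) (B : ℍ → ℂ)
    (hBinv : ∀ γ ∈ Gamma0 N, B ∣[(12 : ℤ)] γ = B) (hBhol : MDiff B)
    (hBbdd : ∀ γ : SL(2, ℤ), IsBoundedAtImInfty (B ∣[(12 : ℤ)] γ))
    (hBσ : (qExpansion 1 B).map (σ : ℂ →+* ℂ) = qExpansion 1 B)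
    (hBne : ∀ γ : SL(2, ℤ), γ ∉ Gamma0 N → B ∣[(12 : ℤ)] γ ≠ B)
    (hlev : ∀ {k : ℤ} (φ : ModularForm 𝒮ℒ k), ∃ ψ : ModularForm 𝒮ℒ k,
      qExpansion 1 ψ = (qExpansion 1 φ).map (σ : ℂ →+* ℂ))
    (f : CuspForm (Gamma0 N) 2) :
    ∃ g : CuspForm (Gamma0 N) 2, qExpansion 1 g = (qExpansion 1 f).map (σ : ℂ →+* ℂ) := by
  obtain ⟨d, c, G, H, hd, hczero, hrel, hNm, hD⟩ := exists_data N B hBinv hBhol hBbdd hBne f
  have hBqf : QF B := qf_Gamma0 (mkMF N B 12 hBinv hBhol hBbdd)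
  have hBtw : Tw (σ : ℂ →+* ℂ) B B := ⟨hBqf, hBqf, hBσ.symm⟩
  choose cs hcs using fun j => hlev (c j)
  choose Gs hGs using fun j => hlev (G j)
  choose Hs hHs using fun j => hlev (H j)
  have hct : ∀ j, Tw (σ : ℂ →+* ℂ) (⇑(c j)) (⇑(cs j)) :=
    fun j => ⟨qf_levelOne _, qf_levelOne _, hcs j⟩
  have hGt : ∀ j, Tw (σ : ℂ →+* ℂ) (⇑(G j)) (⇑(Gs j)) :=
    fun j => ⟨qf_levelOne _, qf_levelOne _, hGs j⟩
  have hHt : ∀ j, Tw (σ : ℂ →+* ℂ) (⇑(H j)) (⇑(Hs j)) :=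
    fun j => ⟨qf_levelOne _, qf_levelOne _, hHs j⟩
  obtain ⟨hR, hq, hDs⟩ := twist_rel (σ : ℂ →+* ℂ) hBtw (qf_Gamma0 f) d hct hGt hHt hrel hNm hD
  set Nms : ℍ → ℂ := comb d (fun j => ⇑(Gs j)) B with hNms
  set Ds : ℍ → ℂ := comb d (fun j => ⇑(Hs j)) B with hDs_def
  have hNhol : MDiff Nms := comb_mdiff (fun j => ModularFormClass.holo (Gs j)) hBhol
  have hDhol : MDiff Ds := comb_mdiff (fun j => ModularFormClass.holo (Hs j)) hBhol
  have hDqf : QF Ds := (Tw.comb (d := d) hHt hBtw).qf2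
  -- the coefficient functions
  set e : ℕ → ℍ → ℂ := fun i => ((-1 : ℂ) ^ (d - i)) • ⇑(cs (d - i)) with he_def
  have he : ∀ i, MDiff (e i) := by
    intro i
    have h2 : e i = (fun _ : ℍ => (-1 : ℂ) ^ (d - i)) * ⇑(cs (d - i)) := by
      funext z; simp [he_def]
    rw [h2]
    exact mdifferentiable_const.mul (ModularFormClass.holo (cs (d - i)))
  have hrel' : ∀ z, Nms z ^ d + ∑ i ∈ Finset.range d, e i z * Nms z ^ i * Ds z ^ (d - i) = 0 := by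
    intro z
    have h := congrFun hR z
    rw [rel_apply, Pi.zero_apply] at h
    rw [← h]
    congr 1
    refine Finset.sum_congr rfl fun i _ => ?_
    simp only [he_def, Pi.smul_apply, smul_eq_mul]
    ring
  obtain ⟨g, hg, hgD, hgrel⟩ := exists_quotient hNhol hDhol hDs d e he hrel'
  have hDinv : Inv (Gamma0 N) (0 + ((d - 1 : ℕ) : ℤ) * 12) Ds :=
    Inv.comb (fun j => inv_levelOne _ (Hs j)) hBinv rfl
  have hNinv : Inv (Gamma0 N) (2 + (0 + ((d - 1 : ℕ) : ℤ) * 12)) Nms :=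
    Inv.comb (fun j => inv_levelOne _ (Gs j)) hBinv (by ring)
  have hginv : Inv (Gamma0 N) 2 g := inv_of_mul hg hDhol hDs hgD hDinv hNinv
  have hinv_e : ∀ i < d, ∀ γ : SL(2, ℤ), e i ∣[((d - i : ℕ) : ℤ) * 2] γ = e i := by
    intro i _ γ
    exact Inv.smul _ (inv_levelOne ⊤ (cs (d - i))) γ (Subgroup.mem_top γ)
  have hzero_e : ∀ i < d, IsZeroAtImInfty (e i) := by
    intro i hi
    have h1 : IsZeroAtImInfty ⇑(c (d - i)) := hczero (d - i) (by omega)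
    have h2 : (qExpansion 1 (c (d - i))).coeff 0 = 0 := (qf_zero_iff (qf_levelOne _)).mp h1
    have h3 : (qExpansion 1 (cs (d - i))).coeff 0 = 0 := by
      rw [hcs, PowerSeries.coeff_map, h2, map_zero]
    have h4 : IsZeroAtImInfty ⇑(cs (d - i)) := (qf_zero_iff (qf_levelOne _)).mpr h3
    exact h4.smul _
  have hgzero : ∀ γ : SL(2, ℤ), IsZeroAtImInfty (g ∣[(2 : ℤ)] γ) :=
    zero_at_cusps_of_rel d hd e hinv_e hzero_e hgrel
  refine ⟨mkCusp N g 2 hginv hg hgzero, ?_⟩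
  have hgq : QF g := qf_Gamma0 (mkCusp N g 2 hginv hg hgzero)
  have hDq0 : qExpansion 1 Ds ≠ 0 := fun h => hDs (hDqf.eq_zero_of_qExpansion h)
  have h1 : qExpansion 1 g * qExpansion 1 Ds =
      (qExpansion 1 f).map (σ : ℂ →+* ℂ) * qExpansion 1 Ds := by
    rw [← hgq.qExpansion_mul hDqf, hgD, hq]
  exact mul_right_cancel₀ hDq0 h1

end Fermat.Agent.S23Lib.Conj
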