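import Mathlib
import Fermat.Prelude.Thm_CongruenceSubgroup_one_mem_strictPeriods_Gamma0

set_option autoImplicit false

noncomputable section

namespace Fermat.Agent.S23Lib

open UpperHalfPlane hiding I
open Filter Topology Complex Function
open scoped Real MatrixGroups ModularForm Manifold
open CongruenceSubgroup Matrix.SpecialLinearGroup

/-- A "q-function": `1`-periodic, holomorphic on `ℍ` and bounded at `i∞`. -/
structure QF (f : ℍ → ℂ) : Prop where
  per : Periodic (f ∘ ofComplex) 1
  hol : MDiff f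
  bdd : IsBoundedAtImInfty f

namespace QF

variable {f g : ℍ → ℂ}

theorem analyticAt (hf : QF f) : AnalyticAt ℂ (cuspFunction 1 f) 0 :=
  analyticAt_cuspFunction_zero one_pos hf.per hf.hol hf.bdd

theorem const (c : ℂ) : QF (fun _ : ℍ => c) where
  per := fun _ => rfl
  hol := mdifferentiable_const
  bdd := Filter.const_boundedAtFilter _ c

theorem zero : QF (0 : ℍ → ℂ) := const 0

theorem one : QF (1 : ℍ → ℂ) := const 1

theorem add (hf : QF f) (hg : QF g) : QF (f + g) where
  per := by
    have : (f + g) ∘ ofComplex = f ∘ ofComplex + g ∘ ofComplex := rfl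
    rw [this]; exact hf.per.add hg.per
  hol := hf.hol.add hg.hol
  bdd := hf.bdd.add hg.bdd

theorem mul (hf : QF f) (hg : QF g) : QF (f * g) where
  per := by
    have : (f * g) ∘ ofComplex = f ∘ ofComplex * g ∘ ofComplex := rfl
    rw [this]; exact hf.per.mul hg.per
  hol := hf.hol.mul hg.hol
  bdd := hf.bdd.mul hg.bdd

theorem smul (c : ℂ) (hf : QF f) : QF (c • f) := by
  have : c • f = (fun _ : ℍ => c) * f := by funext z; simp
  rw [this]; exact (const c).mul hf

theorem neg (hf : QF f) : QF (-f) := by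
  have : -f = (-1 : ℂ) • f := by funext z; simp
  rw [this]; exact hf.smul _

theorem sub (hf : QF f) (hg : QF g) : QF (f - g) := by
  rw [sub_eq_add_neg]; exact hf.add hg.neg

theorem pow (hf : QF f) (n : ℕ) : QF (f ^ n) := by
  induction n with
  | zero => simpa using one
  | succ n ih => rw [pow_succ]; exact ih.mul hf

theorem sum {ι : Type*} (s : Finset ι) {F : ι → ℍ → ℂ} (hF : ∀ i ∈ s, QF (F i)) :
    QF (∑ i ∈ s, F i) := by
  classical
  induction s using Finset.induction_on with
  | empty => simpa using zero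
  | insert i t hi ih =>
    rw [Finset.sum_insert hi]
    exact (hF i (Finset.mem_insert_self i t)).add
      (ih fun j hj => hF j (Finset.mem_insert_of_mem hj))

theorem prod {ι : Type*} (s : Finset ι) {F : ι → ℍ → ℂ} (hF : ∀ i ∈ s, QF (F i)) :
    QF (∏ i ∈ s, F i) := by
  classical
  induction s using Finset.induction_on with
  | empty => simpa using one
  | insert i t hi ih =>
    rw [Finset.prod_insert hi]
    exact (hF i (Finset.mem_insert_self i t)).mul
      (ih fun j hj => hF j (Finset.mem_insert_of_mem hj))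

theorem qExpansion_add (hf : QF f) (hg : QF g) :
    qExpansion 1 (f + g) = qExpansion 1 f + qExpansion 1 g :=
  UpperHalfPlane.qExpansion_add hf.analyticAt hg.analyticAt

theorem qExpansion_mul (hf : QF f) (hg : QF g) :
    qExpansion 1 (f * g) = qExpansion 1 f * qExpansion 1 g :=
  UpperHalfPlane.qExpansion_mul hf.analyticAt hg.analyticAt

theorem qExpansion_smul (c : ℂ) (hf : QF f) :
    qExpansion 1 (c • f) = c • qExpansion 1 f :=
  UpperHalfPlane.qExpansion_smul hf.analyticAt c

theorem qExpansion_neg (hf : QF f) : qExpansion 1 (-f) = -qExpansion 1 f :=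
  UpperHalfPlane.qExpansion_neg hf.analyticAt

theorem qExpansion_sub (hf : QF f) (hg : QF g) :
    qExpansion 1 (f - g) = qExpansion 1 f - qExpansion 1 g :=
  UpperHalfPlane.qExpansion_sub hf.analyticAt hg.analyticAt

theorem qExpansion_pow (hf : QF f) (n : ℕ) :
    qExpansion 1 (f ^ n) = qExpansion 1 f ^ n := by
  induction n with
  | zero => simpa using UpperHalfPlane.qExpansion_one 1
  | succ n ih => rw [pow_succ, (hf.pow n).qExpansion_mul hf, ih, pow_succ]

theorem qExpansion_sum {ι : Type*} (s : Finset ι) {F : ι → ℍ → ℂ} (hF : ∀ i ∈ s, QF (F i)) :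
    qExpansion 1 (∑ i ∈ s, F i) = ∑ i ∈ s, qExpansion 1 (F i) := by
  classical
  induction s using Finset.induction_on with
  | empty => simpa using UpperHalfPlane.qExpansion_zero 1
  | insert i t hi ih =>
    rw [Finset.sum_insert hi, Finset.sum_insert hi,
      (hF i (Finset.mem_insert_self i t)).qExpansion_add
        (sum t fun j hj => hF j (Finset.mem_insert_of_mem hj)),
      ih fun j hj => hF j (Finset.mem_insert_of_mem hj)]

theorem eq_zero_of_qExpansion (hf : QF f) (h : qExpansion 1 f = 0) : f = 0 :=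
  (UpperHalfPlane.qExpansion_eq_zero_iff one_pos hf.per hf.hol hf.bdd).mp h

theorem eq_of_qExpansion_eq (hf : QF f) (hg : QF g) (h : qExpansion 1 f = qExpansion 1 g) :
    f = g := by
  have h1 : qExpansion 1 (f - g) = 0 := by rw [hf.qExpansion_sub hg, h, sub_self]
  have h2 := (hf.sub hg).eq_zero_of_qExpansion h1
  exact sub_eq_zero.mp h2

end QF

/-- Modular forms with strict period `1` are q-functions. -/
theorem qf_of_modularForm {F : Type*} [FunLike F ℍ ℂ] {Γ : Subgroup (GL (Fin 2) ℝ)} {k : ℤ}
    [ModularFormClass F Γ k] (hΓ : (1 : ℝ) ∈ Γ.strictPeriods) (f : F) : QF (⇑f) := by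
  have : Fact (IsCusp OnePoint.infty Γ) := ⟨Γ.isCusp_of_mem_strictPeriods one_pos hΓ⟩
  exact ⟨SlashInvariantFormClass.periodic_comp_ofComplex f hΓ, ModularFormClass.holo f,
    ModularFormClass.bdd_at_infty f⟩

theorem qf_levelOne {F : Type*} [FunLike F ℍ ℂ] {k : ℤ} [ModularFormClass F 𝒮ℒ k] (f : F) :
    QF (⇑f) :=
  qf_of_modularForm one_mem_strictPeriods_SL f

theorem qf_Gamma0 {F : Type*} [FunLike F ℍ ℂ] {N : ℕ} {k : ℤ}
    [ModularFormClass F (Gamma0 N) k] (f : F) : QF (⇑f) :=
  qf_of_modularForm (CongruenceSubgroup.one_mem_strictPeriods_Gamma0 N) f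

/-- A function has rational `q`-expansion. -/
def IsRatQ (f : ℍ → ℂ) : Prop := ∀ n : ℕ, ∃ r : ℚ, (qExpansion 1 f).coeff n = (r : ℂ)

/-- `g` is the `σ`-twist of `f` (on `q`-expansions). -/
def IsTwist (σ : ℂ →+* ℂ) (f g : ℍ → ℂ) : Prop :=
  qExpansion 1 g = (qExpansion 1 f).map σ

end Fermat.Agent.S23Lib
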