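import Mathlib
import Fermat.Agent.S23Lib.QF

set_option autoImplicit false
set_option linter.style.haveILetI false

/-!
# The dilated discriminant `Δ(Nτ)` and its `SL(2, ℤ)`-translates

For `γ ∈ SL(2, ℤ)` not in `Γ₀(N)` the function `Δ_N ∣[12] γ` decays strictly slower than
`Δ_N` at `i∞`; in particular the two functions are different near `i∞`.
-/

noncomputable section

namespace Fermat.Agent.S23Lib.Distinct

open UpperHalfPlane hiding I
open Filter Topology Complex Function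
open scoped Real MatrixGroups ModularForm Manifold
open CongruenceSubgroup Matrix.SpecialLinearGroup ModularForm

local notation "Δ" => ModularForm.discriminant

/-- Two-sided exponential bound for the discriminant near `i∞`. -/
theorem exists_discriminant_bounds :
    ∃ Y : ℝ, ∀ z : ℍ, Y ≤ z.im →
      (1 / 2 : ℝ) * Real.exp (-2 * π * z.im) ≤ ‖Δ z‖ ∧
        ‖Δ z‖ ≤ (3 / 2 : ℝ) * Real.exp (-2 * π * z.im) := by
  have hprod := tendsto_atImInfty_tprod_one_sub_eta_q_pow.eventually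
    (Metric.ball_mem_nhds 1 (by norm_num : (0 : ℝ) < 1 / 2))
  rw [Filter.Eventually, atImInfty_mem] at hprod
  obtain ⟨Y, hY⟩ := hprod
  refine ⟨Y, fun z hz => ?_⟩
  have hτ := hY z hz
  have hq_norm : ‖Periodic.qParam 1 z‖ = Real.exp (-2 * π * z.im) := by
    simp [Periodic.qParam, Complex.norm_exp]
  have hsub : ‖∏' n, (1 - eta_q n z) ^ 24 - 1‖ < 1 / 2 := by
    have h0 : dist (∏' n, (1 - eta_q n z) ^ 24) 1 < 1 / 2 := hτ
    rwa [Complex.dist_eq] at h0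
  have h1 := norm_sub_norm_le 1 (∏' n, (1 - eta_q n z) ^ 24)
  have h2 := norm_sub_norm_le (∏' n, (1 - eta_q n z) ^ 24) 1
  rw [norm_one] at h1 h2
  rw [norm_sub_rev] at h1
  rw [discriminant_eq_q_prod, norm_mul, hq_norm]
  have hpos := Real.exp_pos (-2 * π * z.im)
  constructor
  · rw [mul_comm]
    apply mul_le_mul_of_nonneg_left _ hpos.le
    linarith
  · rw [mul_comm (3 / 2 : ℝ)]
    apply mul_le_mul_of_nonneg_left _ hpos.le
    linarith

theorem hermite_aux (a b d G h c' u v : ℤ) (hdet : a * d - b * (G * c') = 1)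
    (hbez : G = (G * c') * u + (G * h) * v) (hG : G ≠ 0) :
    ∃ (p q r s b' : ℤ), p * s - q * r = 1 ∧ (G * h) * a = p * G ∧
      (G * h) * b = p * b' + q * h ∧ G * c' = r * G ∧ d = r * b' + s * h := by
  have h1 : c' * u + h * v = 1 := by
    have : G * (c' * u + h * v) = G * 1 := by linear_combination -hbez
    exact mul_left_cancel₀ hG this
  have E1 : (v * d) * h * a + (u - G * h * v * b) * c' = 1 := by
    linear_combination h1 + (h * v) * hdet
  refine ⟨h * a, -(u - G * h * v * b), c', v * d,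
    v * d * (G * h) * b + (u - G * h * v * b) * d, ?_, ?_, ?_, ?_, ?_⟩
  · linear_combination E1
  · ring
  · linear_combination (-(h * G * b)) * E1 + (-(h * (u - G * h * v * b))) * hdet
  · ring
  · linear_combination ((v * d) * h) * hdet - d * E1

/-- The Hermite normal form of `(N 0; 0 1) * γ`: it equals `δ * (g b'; 0 h)` with
`δ = (p q; r s) ∈ SL(2, ℤ)`, `g = gcd(c, N)` and `N = g * h`. -/
theorem exists_hermite (a b c d : ℤ) (hdet : a * d - b * c = 1) (N : ℕ) (hN : N ≠ 0) :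
    ∃ (g h : ℕ) (p q r s b' : ℤ), g = Int.gcd c N ∧ N = g * h ∧ p * s - q * r = 1 ∧
      (N : ℤ) * a = p * g ∧ (N : ℤ) * b = p * b' + q * h ∧ c = r * g ∧
      d = r * b' + s * h := by
  obtain ⟨h, hh⟩ : (Int.gcd c N : ℤ) ∣ (N : ℤ) := Int.gcd_dvd_right c N
  obtain ⟨c', hc'⟩ : (Int.gcd c N : ℤ) ∣ c := Int.gcd_dvd_left c N
  have hg0 : (Int.gcd c N : ℤ) ≠ 0 := by
    intro h0
    rw [h0, zero_mul] at hh
    exact hN (by exact_mod_cast hh)
  have hgpos : (0 : ℤ) < (Int.gcd c N : ℤ) := lt_of_le_of_ne (by positivity) (Ne.symm hg0)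
  have hhpos : 0 < h := by
    have hNpos : (0 : ℤ) < (N : ℤ) := by exact_mod_cast Nat.pos_of_ne_zero hN
    rw [hh] at hNpos
    by_contra hcon
    push Not at hcon
    nlinarith
  have hbez := Int.gcd_eq_gcd_ab c N
  have hdet' : a * d - b * ((Int.gcd c N : ℤ) * c') = 1 := by
    rw [← hc']; exact hdet
  have hbez' : (Int.gcd c N : ℤ) = ((Int.gcd c N : ℤ) * c') * Int.gcdA c N +
      ((Int.gcd c N : ℤ) * h) * Int.gcdB c N := by
    rw [← hc', ← hh]; exact hbez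
  obtain ⟨p, q, r, s, b', h1, h2, h3, h4, h5⟩ :=
    hermite_aux a b d (Int.gcd c N : ℤ) h c' (Int.gcdA c N) (Int.gcdB c N) hdet' hbez' hg0
  have hcast : ((h.toNat : ℕ) : ℤ) = h := Int.toNat_of_nonneg hhpos.le
  refine ⟨Int.gcd c N, h.toNat, p, q, r, s, b', rfl, ?_, h1, ?_, ?_, ?_, ?_⟩
  · have : ((Int.gcd c N * h.toNat : ℕ) : ℤ) = (N : ℤ) := by
      push_cast
      rw [hcast, ← hh]
    exact_mod_cast this.symm
  · rw [← h2, ← hh]
  · rw [hcast, ← h3, ← hh]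
  · rw [← h4, ← hc']
  · rw [hcast]; exact h5

theorem discriminant_slash (δ : SL(2, ℤ)) : (Δ ∣[(12 : ℤ)] δ) = Δ :=
  SlashInvariantForm.slash_action_generators_SL2Z discriminant_S_invariant
    discriminant_T_invariant δ

theorem coe_smul_eq (γ : SL(2, ℤ)) (τ : ℍ) :
    ((γ • τ : ℍ) : ℂ) = ((γ 0 0 : ℂ) * τ + γ 0 1) / ((γ 1 0 : ℂ) * τ + γ 1 1) := by
  have := UpperHalfPlane.coe_specialLinearGroup_apply γ τ
  simpa using this

/-- The slash formula: if `F τ = Δ(Nτ)` then `(F ∣[12] γ) τ = h⁻¹² Δ((gτ + b')/h)` with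
`g = gcd(c, N)` and `N = g h`. -/
theorem exists_slash_formula (N : ℕ) (hN : N ≠ 0) (F : ℍ → ℂ)
    (hF : ∀ τ w : ℍ, (w : ℂ) = (N : ℂ) * (τ : ℂ) → F τ = Δ w) (γ : SL(2, ℤ)) :
    ∃ (g h : ℕ) (b' : ℤ), g = Int.gcd (γ 1 0) N ∧ N = g * h ∧
      ∀ τ w : ℍ, (w : ℂ) = ((g : ℂ) * τ + b') / h →
        (F ∣[(12 : ℤ)] γ) τ = Δ w * ((h : ℂ)⁻¹) ^ 12 := by
  have hdet : γ 0 0 * γ 1 1 - γ 0 1 * γ 1 0 = 1 := by
    have := γ.det_coe
    rw [Matrix.det_fin_two] at this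
    exact this
  obtain ⟨g, h, p, q, r, s, b', hg, hNgh, hδ, e1, e2, e3, e4⟩ :=
    exists_hermite (γ 0 0) (γ 0 1) (γ 1 0) (γ 1 1) hdet N hN
  refine ⟨g, h, b', hg, hNgh, fun τ w hw => ?_⟩
  have hh0 : (h : ℂ) ≠ 0 := by
    have : h ≠ 0 := by
      rintro rfl
      rw [mul_zero] at hNgh
      exact hN hNgh
    exact_mod_cast this
  let δ : SL(2, ℤ) := ⟨!![p, q; r, s], by rw [Matrix.det_fin_two_of]; exact hδ⟩
  have hδ00 : (δ 0 0 : ℤ) = p := rfl
  have hδ01 : (δ 0 1 : ℤ) = q := rfl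
  have hδ10 : (δ 1 0 : ℤ) = r := rfl
  have hδ11 : (δ 1 1 : ℤ) = s := rfl
  -- complex versions of the integer identities
  have c1 : (N : ℂ) * (γ 0 0 : ℂ) = p * g := by exact_mod_cast e1
  have c2 : (N : ℂ) * (γ 0 1 : ℂ) = p * b' + q * h := by exact_mod_cast e2
  have c3 : (γ 1 0 : ℂ) = r * g := by exact_mod_cast e3
  have c4 : (γ 1 1 : ℂ) = r * b' + s * h := by exact_mod_cast e4
  have hden : denom γ τ ≠ 0 := denom_ne_zero _ τ
  have hden' : denom γ τ = (γ 1 0 : ℂ) * τ + γ 1 1 := ModularGroup.denom_apply γ τ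
  have hdenδ : denom δ w = (r : ℂ) * w + s := ModularGroup.denom_apply δ w
  have hnum : ((p : ℂ) * w + q) * h = (N : ℂ) * ((γ 0 0 : ℂ) * τ + γ 0 1) := by
    rw [hw, add_mul, mul_assoc, div_mul_cancel₀ _ hh0]
    linear_combination (-(τ : ℂ)) * c1 - c2
  have hdenq : ((r : ℂ) * w + s) * h = (γ 1 0 : ℂ) * τ + γ 1 1 := by
    rw [hw, add_mul, mul_assoc, div_mul_cancel₀ _ hh0]
    linear_combination (-(τ : ℂ)) * c3 - c4
  have hdenrel : denom δ w = denom γ τ / h := by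
    rw [hdenδ, hden', eq_div_iff hh0, hdenq]
  have hpt : ((δ • w : ℍ) : ℂ) = (N : ℂ) * ((γ • τ : ℍ) : ℂ) := by
    rw [coe_smul_eq, coe_smul_eq, hδ00, hδ01, hδ10, hδ11]
    rw [← mul_div_mul_right _ _ hh0, hnum, hdenq, mul_div_assoc]
  have hFδ : F (γ • τ) = Δ (δ • w) := hF (γ • τ) (δ • w) hpt
  have hΔ : Δ (δ • w) = Δ w * denom δ w ^ (12 : ℕ) := by
    have h1 := congrFun (discriminant_slash δ) w
    rw [SL_slash_apply] at h1
    have hdw : denom δ w ≠ 0 := denom_ne_zero _ w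
    rw [← h1, mul_assoc, zpow_neg, ← zpow_natCast (denom δ w) 12]
    norm_num [hdw]
  rw [SL_slash_apply, hFδ, hΔ, hdenrel, div_pow, zpow_neg]
  have : (denom γ τ) ^ (12 : ℤ) = (denom γ τ) ^ (12 : ℕ) := by norm_cast
  rw [this]
  field_simp

/-- **Distinctness near `i∞`.** If `F τ = Δ(Nτ)` and `γ ∈ SL(2, ℤ)` is not in `Γ₀(N)` then
`F` and `F ∣[12] γ` take different values at all points with large imaginary part. -/
theorem eventually_ne_slash (N : ℕ) (hN : N ≠ 0) (F : ℍ → ℂ)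
    (hF : ∀ τ w : ℍ, (w : ℂ) = (N : ℂ) * (τ : ℂ) → F τ = Δ w) (γ : SL(2, ℤ))
    (hγ : γ ∉ Gamma0 N) : ∀ᶠ τ in atImInfty, F τ ≠ (F ∣[(12 : ℤ)] γ) τ := by
  obtain ⟨g, h, b', hg, hNgh, hform⟩ := exists_slash_formula N hN F hF γ
  obtain ⟨Y, hY⟩ := exists_discriminant_bounds
  have hg0 : g ≠ 0 := by
    rintro rfl
    rw [zero_mul] at hNgh
    exact hN hNgh
  have hh0 : h ≠ 0 := by
    rintro rfl
    rw [mul_zero] at hNgh
    exact hN hNgh
  have hh1 : h ≠ 1 := by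
    rintro rfl
    rw [mul_one] at hNgh
    apply hγ
    rw [Gamma0_mem, ZMod.intCast_zmod_eq_zero_iff_dvd]
    rw [hNgh, hg]
    exact Int.gcd_dvd_left _ _
  have hh2 : 2 ≤ h := by omega
  have hg1 : 1 ≤ g := by omega
  have hgR : (0 : ℝ) < g := by exact_mod_cast hg1
  have hhR : (2 : ℝ) ≤ h := by exact_mod_cast hh2
  have hhR0 : (0 : ℝ) < h := by linarith
  have hNR : (N : ℝ) = g * h := by exact_mod_cast hNgh
  have hNR0 : (0 : ℝ) < N := by rw [hNR]; positivity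
  set κ : ℝ := (N : ℝ) - g / h with hκdef
  have hκ : 0 < κ := by
    have h1 : (g : ℝ) / h ≤ g / 2 := by
      apply div_le_div_of_nonneg_left hgR.le (by norm_num) hhR
    have h2 : (g : ℝ) * 2 ≤ N := by rw [hNR]; nlinarith
    rw [hκdef]
    linarith
  rw [Filter.Eventually, atImInfty_mem]
  refine ⟨max (max (Y / N) (Y * h / g)) ((Real.log (3 * (h : ℝ) ^ 12) + 1) / (2 * π * κ)),
    fun τ hτ => ?_⟩
  have hy1 : Y / N ≤ τ.im := le_trans (le_trans (le_max_left _ _) (le_max_left _ _)) hτ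
  have hy2 : Y * h / g ≤ τ.im := le_trans (le_trans (le_max_right _ _) (le_max_left _ _)) hτ
  have hy3 : (Real.log (3 * (h : ℝ) ^ 12) + 1) / (2 * π * κ) ≤ τ.im :=
    le_trans (le_max_right _ _) hτ
  have him1 : ((N : ℂ) * (τ : ℂ)).im = N * τ.im := by simp
  have him2 : (((g : ℂ) * τ + b') / h).im = g * τ.im / h := by
    rw [Complex.div_natCast_im]
    simp
  let wN : ℍ := ⟨(N : ℂ) * τ, by rw [him1]; exact mul_pos hNR0 τ.im_pos⟩
  let w' : ℍ := ⟨((g : ℂ) * τ + b') / h, by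
    rw [him2]; exact div_pos (mul_pos hgR τ.im_pos) hhR0⟩
  have hwNim : wN.im = N * τ.im := him1
  have hw'im : w'.im = g * τ.im / h := him2
  have hYN : Y ≤ wN.im := by
    rw [hwNim]
    rw [div_le_iff₀ hNR0] at hy1
    linarith
  have hYw' : Y ≤ w'.im := by
    rw [hw'im, le_div_iff₀ hhR0]
    rw [div_le_iff₀ hgR] at hy2
    linarith
  have h1 := (hY wN hYN).2
  have h2 := (hY w' hYw').1
  rw [hwNim] at h1
  rw [hw'im] at h2
  intro heq
  rw [hF τ wN rfl, hform τ w' rfl] at heq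
  have hn : ‖Δ wN‖ = ‖Δ w'‖ * ((h : ℝ)⁻¹) ^ 12 := by
    rw [heq, norm_mul, norm_pow, norm_inv, Complex.norm_natCast]
  have hpow : (0 : ℝ) < (h : ℝ) ^ 12 := by positivity
  -- `exp(-2π g y / h) ≤ 3 h^12 exp(-2π N y)`
  have key0 : Real.exp (-2 * π * (g * τ.im / h)) ≤
      3 * (h : ℝ) ^ 12 * Real.exp (-2 * π * (N * τ.im)) := by
    have e1 : ‖Δ w'‖ = ‖Δ wN‖ * (h : ℝ) ^ 12 := by
      rw [hn, inv_pow, mul_assoc, inv_mul_cancel₀ hpow.ne', mul_one]
    have e2 : ‖Δ w'‖ ≤ 3 / 2 * Real.exp (-2 * π * (N * τ.im)) * (h : ℝ) ^ 12 := by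
      rw [e1]
      exact mul_le_mul_of_nonneg_right h1 hpow.le
    nlinarith
  have key : Real.exp (2 * π * κ * τ.im) ≤ 3 * (h : ℝ) ^ 12 := by
    have e3 : Real.exp (2 * π * κ * τ.im) =
        Real.exp (-2 * π * (g * τ.im / h)) * Real.exp (2 * π * (N * τ.im)) := by
      rw [← Real.exp_add]
      congr 1
      rw [hκdef]
      ring
    have e4 : Real.exp (-2 * π * (N * τ.im)) * Real.exp (2 * π * (N * τ.im)) = 1 := by
      rw [← Real.exp_add]
      have : -2 * π * (N * τ.im) + 2 * π * (N * τ.im) = 0 := by ring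
      rw [this, Real.exp_zero]
    rw [e3]
    calc Real.exp (-2 * π * (g * τ.im / h)) * Real.exp (2 * π * (N * τ.im))
        ≤ 3 * (h : ℝ) ^ 12 * Real.exp (-2 * π * (N * τ.im)) * Real.exp (2 * π * (N * τ.im)) :=
          mul_le_mul_of_nonneg_right key0 (Real.exp_pos _).le
      _ = 3 * (h : ℝ) ^ 12 := by rw [mul_assoc, e4, mul_one]
  have key2 : 3 * (h : ℝ) ^ 12 < Real.exp (2 * π * κ * τ.im) := by
    have hpos : (0 : ℝ) < 3 * (h : ℝ) ^ 12 := by positivity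
    have hκ2 : (0 : ℝ) < 2 * π * κ := by positivity
    have e5 : Real.log (3 * (h : ℝ) ^ 12) + 1 ≤ 2 * π * κ * τ.im := by
      rw [div_le_iff₀ hκ2] at hy3
      linarith
    calc 3 * (h : ℝ) ^ 12 = Real.exp (Real.log (3 * (h : ℝ) ^ 12)) := (Real.exp_log hpos).symm
      _ < Real.exp (Real.log (3 * (h : ℝ) ^ 12) + 1) := Real.exp_lt_exp.mpr (by linarith)
      _ ≤ Real.exp (2 * π * κ * τ.im) := Real.exp_le_exp.mpr e5
  exact absurd key (not_le.mpr key2)

/-- The point `Nτ` of the upper half plane. -/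
def dilPt (N : ℕ) [NeZero N] (τ : ℍ) : ℍ :=
  ⟨(N : ℂ) * τ, by
    have h : ((N : ℂ) * (τ : ℂ)).im = N * τ.im := by simp
    rw [h]
    exact mul_pos (Nat.cast_pos.mpr (NeZero.pos N)) τ.im_pos⟩

theorem coe_dilPt (N : ℕ) [NeZero N] (τ : ℍ) : ((dilPt N τ : ℍ) : ℂ) = (N : ℂ) * τ := rfl

/-- The dilated discriminant `Δ(Nτ)`. -/
def deltaN (N : ℕ) [NeZero N] : ℍ → ℂ := fun τ => Δ (dilPt N τ)

theorem deltaN_apply (N : ℕ) [NeZero N] (τ : ℍ) : deltaN N τ = Δ (dilPt N τ) := rfl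

theorem deltaN_eq (N : ℕ) [NeZero N] (τ w : ℍ) (hw : (w : ℂ) = (N : ℂ) * (τ : ℂ)) :
    deltaN N τ = Δ w := by
  have : dilPt N τ = w := UpperHalfPlane.ext (by rw [coe_dilPt, hw])
  rw [deltaN_apply, this]

theorem eventually_deltaN_ne (N : ℕ) [NeZero N] (γ : SL(2, ℤ)) (hγ : γ ∉ Gamma0 N) :
    ∀ᶠ τ in atImInfty, deltaN N τ ≠ (deltaN N ∣[(12 : ℤ)] γ) τ :=
  eventually_ne_slash N (NeZero.ne N) (deltaN N) (deltaN_eq N) γ hγ

/-! ### The exports used by the conjugation argument -/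

section exports

variable (N : ℕ) [NeZero N]

/-- (1) `Δ_N` is invariant under `Γ₀(N)`. -/
theorem deltaN_slash_Gamma0 (γ : SL(2, ℤ)) (hγ : γ ∈ Gamma0 N) :
    deltaN N ∣[(12 : ℤ)] γ = deltaN N := by
  rw [Gamma0_mem, ZMod.intCast_zmod_eq_zero_iff_dvd] at hγ
  obtain ⟨c₁, hc₁⟩ := hγ
  have hdet : γ 0 0 * γ 1 1 - γ 0 1 * γ 1 0 = 1 := by
    have := γ.det_coe
    rw [Matrix.det_fin_two] at this
    exact this
  let γ' : SL(2, ℤ) := ⟨!![γ 0 0, N * γ 0 1; c₁, γ 1 1], by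
    rw [Matrix.det_fin_two_of]
    rw [hc₁] at hdet
    linear_combination hdet⟩
  have h00 : (γ' 0 0 : ℤ) = γ 0 0 := rfl
  have h01 : (γ' 0 1 : ℤ) = N * γ 0 1 := rfl
  have h10 : (γ' 1 0 : ℤ) = c₁ := rfl
  have h11 : (γ' 1 1 : ℤ) = γ 1 1 := rfl
  have hc : (γ 1 0 : ℂ) = (N : ℂ) * c₁ := by exact_mod_cast hc₁
  ext τ
  have hden : denom γ' (dilPt N τ) = denom γ τ := by
    rw [ModularGroup.denom_apply, ModularGroup.denom_apply, coe_dilPt, h10, h11, hc]
    ring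
  have hd2 : (γ 1 0 : ℂ) * τ + γ 1 1 ≠ 0 := by
    rw [← ModularGroup.denom_apply]; exact denom_ne_zero _ τ
  have hpt : ((γ' • dilPt N τ : ℍ) : ℂ) = (N : ℂ) * ((γ • τ : ℍ) : ℂ) := by
    rw [coe_smul_eq, coe_smul_eq, coe_dilPt, h00, h01, h10, h11]
    have e : ((c₁ : ℂ) * ((N : ℂ) * τ) + γ 1 1) = (γ 1 0 : ℂ) * τ + γ 1 1 := by
      rw [hc]; ring
    rw [e, mul_div_assoc']
    congr 1
    push_cast
    ring
  have h1 := congrFun (discriminant_slash γ') (dilPt N τ)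
  rw [SL_slash_apply] at h1
  rw [SL_slash_apply, deltaN_eq N (γ • τ) (γ' • dilPt N τ) hpt, ← hden, h1, deltaN_apply]

/-- (2) `Δ_N` is holomorphic. -/
theorem deltaN_mdiff : MDiff (deltaN N) := by
  rw [UpperHalfPlane.mdifferentiable_iff]
  have hΔ : DifferentiableOn ℂ (Δ ∘ ofComplex) {z | 0 < z.im} :=
    UpperHalfPlane.mdifferentiable_iff.mp CuspForm.discriminant.holo'
  have hNpos : (0 : ℝ) < N := Nat.cast_pos.mpr (NeZero.pos N)
  have hmaps : Set.MapsTo (fun z : ℂ => (N : ℂ) * z) {z | 0 < z.im} {z | 0 < z.im} := by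
    intro z hz
    have h : ((N : ℂ) * z).im = N * z.im := by simp
    show 0 < ((N : ℂ) * z).im
    rw [h]
    exact mul_pos hNpos hz
  have hcomp : DifferentiableOn ℂ ((Δ ∘ ofComplex) ∘ fun z : ℂ => (N : ℂ) * z) {z | 0 < z.im} :=
    hΔ.comp (by fun_prop) hmaps
  refine hcomp.congr fun z hz => ?_
  have hz' : 0 < ((N : ℂ) * z).im := hmaps hz
  simp only [Function.comp_apply]
  rw [ofComplex_apply_of_im_pos hz, ofComplex_apply_of_im_pos hz']
  exact deltaN_eq N _ _ rfl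

/-- (3) All `SL(2, ℤ)`-translates of `Δ_N` are bounded at `i∞`. -/
theorem deltaN_bdd_slash (γ : SL(2, ℤ)) : IsBoundedAtImInfty (deltaN N ∣[(12 : ℤ)] γ) := by
  obtain ⟨g, h, b', hg, hNgh, hform⟩ :=
    exists_slash_formula N (NeZero.ne N) (deltaN N) (deltaN_eq N) γ
  obtain ⟨Y, hY⟩ := exists_discriminant_bounds
  have hN : N ≠ 0 := NeZero.ne N
  have hg0 : g ≠ 0 := by
    rintro rfl
    rw [zero_mul] at hNgh
    exact hN hNgh
  have hh0 : h ≠ 0 := by
    rintro rfl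
    rw [mul_zero] at hNgh
    exact hN hNgh
  have hgR : (0 : ℝ) < g := by exact_mod_cast Nat.pos_of_ne_zero hg0
  have hhR : (0 : ℝ) < h := by exact_mod_cast Nat.pos_of_ne_zero hh0
  rw [isBoundedAtImInfty_iff]
  refine ⟨3 / 2 * ((h : ℝ)⁻¹) ^ 12, max Y 0 * h / g, fun τ hτ => ?_⟩
  have him2 : (((g : ℂ) * τ + b') / h).im = g * τ.im / h := by
    rw [Complex.div_natCast_im]
    simp
  let w' : ℍ := ⟨((g : ℂ) * τ + b') / h, by
    rw [him2]; exact div_pos (mul_pos hgR τ.im_pos) hhR⟩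
  have hw'im : w'.im = g * τ.im / h := him2
  have hYw' : max Y 0 ≤ w'.im := by
    rw [hw'im, le_div_iff₀ hhR]
    rw [div_le_iff₀ hgR] at hτ
    linarith
  have h1 := (hY w' (le_trans (le_max_left _ _) hYw')).2
  have h0 : 0 ≤ w'.im := le_trans (le_max_right _ _) hYw'
  have hexp : Real.exp (-2 * π * w'.im) ≤ 1 := by
    rw [Real.exp_le_one_iff]
    have : 0 ≤ 2 * π * w'.im := by positivity
    linarith
  rw [hform τ w' rfl, norm_mul, norm_pow, norm_inv, Complex.norm_natCast]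
  apply mul_le_mul_of_nonneg_right _ (by positivity)
  calc ‖Δ w'‖ ≤ 3 / 2 * Real.exp (-2 * π * w'.im) := h1
    _ ≤ 3 / 2 * 1 := by gcongr
    _ = 3 / 2 := mul_one _

/-- (4) The translates of `Δ_N` by elements outside `Γ₀(N)` differ from `Δ_N`. -/
theorem deltaN_slash_ne (γ : SL(2, ℤ)) (hγ : γ ∉ Gamma0 N) :
    deltaN N ∣[(12 : ℤ)] γ ≠ deltaN N := by
  intro heq
  obtain ⟨τ, hτ⟩ := (eventually_deltaN_ne N γ hγ).exists
  exact hτ (congrFun heq τ).symm

/-- `Δ_N` is a `q`-function. -/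
theorem qf_deltaN : QF (deltaN N) where
  per := by
    intro z
    simp only [Function.comp_apply]
    have hNpos : (0 : ℝ) < N := Nat.cast_pos.mpr (NeZero.pos N)
    by_cases hz : 0 < z.im
    · have hz1 : 0 < (z + 1).im := by simpa using hz
      have hper : Periodic (Δ ∘ ofComplex) 1 := (qf_levelOne CuspForm.discriminant).per
      have hperN := hper.nat_mul N
      have hNz : 0 < ((N : ℂ) * z).im := by
        have h : ((N : ℂ) * z).im = N * z.im := by simp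
        rw [h]; exact mul_pos hNpos hz
      have hNz1 : 0 < ((N : ℂ) * (z + 1)).im := by
        have h : ((N : ℂ) * (z + 1)).im = N * z.im := by simp
        rw [h]; exact mul_pos hNpos hz
      rw [ofComplex_apply_of_im_pos hz, ofComplex_apply_of_im_pos hz1]
      rw [deltaN_eq N ⟨z + 1, hz1⟩ ⟨(N : ℂ) * (z + 1), hNz1⟩ rfl,
        deltaN_eq N ⟨z, hz⟩ ⟨(N : ℂ) * z, hNz⟩ rfl]
      have h2 := hperN ((N : ℂ) * z)
      simp only [Function.comp_apply] at h2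
      rw [ofComplex_apply_of_im_pos hNz] at h2
      rw [← h2]
      have e : (N : ℂ) * z + (N : ℂ) * 1 = N * (z + 1) := by ring
      rw [e, ofComplex_apply_of_im_pos hNz1]
    · have hz' : z.im ≤ 0 := not_lt.mp hz
      have hz1 : (z + 1).im ≤ 0 := by simpa using hz'
      rw [ofComplex_apply_of_im_nonpos hz', ofComplex_apply_of_im_nonpos hz1]
  hol := deltaN_mdiff N
  bdd := by
    have h := deltaN_bdd_slash N 1
    rwa [SlashAction.slash_one] at h

theorem qParam_dilPt (τ : ℍ) :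
    Periodic.qParam 1 (dilPt N τ) = (Periodic.qParam 1 τ) ^ N := by
  rw [coe_dilPt]
  simp only [Periodic.qParam]
  rw [← Complex.exp_nat_mul]
  congr 1
  simp
  ring

theorem coeff_unique_fun (f : ℍ → ℂ) (c : ℕ → ℂ) (h1 : AnalyticAt ℂ (cuspFunction 1 f) 0)
    (hf : ∀ τ : ℍ, HasSum (fun m ↦ c m • Periodic.qParam 1 τ ^ m) (f τ)) (m : ℕ) :
    c m = (qExpansion 1 f).coeff m := by
  letI : FunLike (ℍ → ℂ) ℍ ℂ := { coe := id, coe_injective := fun _ _ h => h }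
  exact UpperHalfPlane.qExpansion_coeff_unique (F := ℍ → ℂ) f one_pos h1 hf m

/-- (5) The `q`-expansion of `Δ_N` is `qExpansion(Δ)(q^N)`. -/
theorem deltaN_qExpansion_coeff (n : ℕ) :
    (qExpansion 1 (deltaN N)).coeff n =
      if N ∣ n then (qExpansion 1 Δ).coeff (n / N) else 0 := by
  have hNpos := NeZero.pos N
  let c : ℕ → ℂ := fun n => if N ∣ n then (qExpansion 1 Δ).coeff (n / N) else 0
  have hqfΔ : QF Δ := qf_levelOne CuspForm.discriminant
  have hsum : ∀ τ : ℍ, HasSum (fun m => c m • Periodic.qParam 1 τ ^ m) (deltaN N τ) := by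
    intro τ
    have hΔ := UpperHalfPlane.hasSum_qExpansion one_pos hqfΔ.per hqfΔ.hol hqfΔ.bdd (dilPt N τ)
    rw [qParam_dilPt] at hΔ
    have hinj : Function.Injective (fun m : ℕ => N * m) :=
      fun x y h => Nat.eq_of_mul_eq_mul_left hNpos h
    refine (Function.Injective.hasSum_iff hinj ?_).mp ?_
    · intro x hx
      have hnd : ¬ N ∣ x := fun ⟨k, hk⟩ => hx ⟨k, hk.symm⟩
      simp [c, hnd]
    · rw [deltaN_apply]
      convert hΔ using 1
      funext m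
      simp [c, Nat.mul_div_cancel_left m hNpos, pow_mul]
  have h := coeff_unique_fun (deltaN N) c (qf_deltaN N).analyticAt hsum n
  rw [← h]

/-- If `Δ` has rational `q`-expansion then so has `Δ_N`. -/
theorem deltaN_isRatQ (hΔ : ∀ n : ℕ, ∃ r : ℚ, (qExpansion 1 Δ).coeff n = (r : ℂ)) (n : ℕ) :
    ∃ r : ℚ, (qExpansion 1 (deltaN N)).coeff n = (r : ℂ) := by
  rw [deltaN_qExpansion_coeff]
  split_ifs with h
  · exact hΔ (n / N)
  · exact ⟨0, by simp⟩

/-- If `Δ` has rational `q`-expansion then the `q`-expansion of `Δ_N` is fixed by every ring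
endomorphism of `ℂ`. -/
theorem deltaN_qExpansion_map (hΔ : ∀ n : ℕ, ∃ r : ℚ, (qExpansion 1 Δ).coeff n = (r : ℂ))
    (σ : ℂ →+* ℂ) : (qExpansion 1 (deltaN N)).map σ = qExpansion 1 (deltaN N) := by
  ext n
  obtain ⟨r, hr⟩ := deltaN_isRatQ N hΔ n
  rw [PowerSeries.coeff_map, hr, map_ratCast]

end exports

end Fermat.Agent.S23Lib.Distinct
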