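import Fermat.Agent.S23Lib.QF

set_option autoImplicit false

noncomputable section

namespace Fermat.Agent.S23Lib.Sym

open UpperHalfPlane hiding I
open Filter Topology Complex Function Asymptotics
open scoped Real MatrixGroups ModularForm Manifold
open CongruenceSubgroup Matrix.SpecialLinearGroup
open Fermat.Agent.S23Lib

variable {Γ : Subgroup SL(2, ℤ)}

/-- The family of translates of a `Γ`-invariant function, indexed by `SL(2, ℤ) ⧸ Γ`. -/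
def tr (f : ℍ → ℂ) (k : ℤ) (hf : ∀ γ ∈ Γ, f ∣[k] γ = f) (q : SL(2, ℤ) ⧸ Γ) : ℍ → ℂ :=
  Quotient.liftOn' q (fun γ => f ∣[k] γ⁻¹) (by
    intro a b hab
    rw [QuotientGroup.leftRel_apply] at hab
    have h1 : f ∣[k] (a⁻¹ * b)⁻¹ = f := hf _ (Γ.inv_mem hab)
    show f ∣[k] a⁻¹ = f ∣[k] b⁻¹
    have h2 : b⁻¹ = (a⁻¹ * b)⁻¹ * a⁻¹ := by group
    rw [h2, SlashAction.slash_mul, h1])

theorem tr_mk (f : ℍ → ℂ) (k : ℤ) (hf : ∀ γ ∈ Γ, f ∣[k] γ = f) (γ : SL(2, ℤ)) :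
    tr f k hf (γ : SL(2, ℤ) ⧸ Γ) = f ∣[k] γ⁻¹ := rfl

theorem tr_one (f : ℍ → ℂ) (k : ℤ) (hf : ∀ γ ∈ Γ, f ∣[k] γ = f) :
    tr f k hf ((1 : SL(2, ℤ)) : SL(2, ℤ) ⧸ Γ) = f := by
  rw [tr_mk, inv_one, SlashAction.slash_one]

theorem tr_slash (f : ℍ → ℂ) (k : ℤ) (hf : ∀ γ ∈ Γ, f ∣[k] γ = f) (h : SL(2, ℤ))
    (q : SL(2, ℤ) ⧸ Γ) : tr f k hf q ∣[k] h = tr f k hf (h⁻¹ • q) := by
  induction q using QuotientGroup.induction_on with
  | H γ =>
    have h1 : (h⁻¹ • (γ : SL(2, ℤ) ⧸ Γ)) = ((h⁻¹ * γ : SL(2, ℤ)) : SL(2, ℤ) ⧸ Γ) := rfl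
    rw [h1, tr_mk, tr_mk, ← SlashAction.slash_mul]
    congr 1
    group

/-- An equivariant family of weight `k`. -/
def Eqv (k : ℤ) (b : SL(2, ℤ) ⧸ Γ → ℍ → ℂ) : Prop :=
  ∀ (h : SL(2, ℤ)) (q : SL(2, ℤ) ⧸ Γ), b q ∣[k] h = b (h⁻¹ • q)

theorem eqv_tr (f : ℍ → ℂ) (k : ℤ) (hf : ∀ γ ∈ Γ, f ∣[k] γ = f) : Eqv k (tr f k hf) :=
  fun h q => tr_slash f k hf h q

theorem eqv_one : Eqv (Γ := Γ) 0 (fun _ => (1 : ℍ → ℂ)) :=
  fun h _ => ModularForm.is_invariant_one h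

theorem prod_slash_SL {ι : Type*} (s : Finset ι) (k : ℤ) (F : ι → ℍ → ℂ) (h : SL(2, ℤ)) :
    (∏ i ∈ s, F i) ∣[(s.card : ℤ) * k] h = ∏ i ∈ s, F i ∣[k] h := by
  classical
  induction s using Finset.induction_on with
  | empty =>
    simp only [Finset.prod_empty, Finset.card_empty, Nat.cast_zero, zero_mul]
    exact ModularForm.is_invariant_one h
  | insert i t hi ih =>
    rw [Finset.prod_insert hi, Finset.prod_insert hi, Finset.card_insert_of_notMem hi]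
    have : ((t.card + 1 : ℕ) : ℤ) * k = k + (t.card : ℤ) * k := by push_cast; ring
    rw [this, ModularForm.mul_slash_SL2, ih]

variable [Fintype (SL(2, ℤ) ⧸ Γ)] [DecidableEq (SL(2, ℤ) ⧸ Γ)]

/-- Elementary symmetric functions of a family. -/
def esym (j : ℕ) (b : SL(2, ℤ) ⧸ Γ → ℍ → ℂ) : ℍ → ℂ :=
  ∑ s ∈ Finset.powersetCard j (Finset.univ : Finset (SL(2, ℤ) ⧸ Γ)), ∏ q ∈ s, b q

/-- The mixed symmetric functions `∑_x a_x e_j(b_y : y ≠ x)`. -/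
def psi (j : ℕ) (a b : SL(2, ℤ) ⧸ Γ → ℍ → ℂ) : ℍ → ℂ :=
  ∑ x : SL(2, ℤ) ⧸ Γ, a x *
    ∑ s ∈ Finset.powersetCard j ((Finset.univ : Finset (SL(2, ℤ) ⧸ Γ)).erase x), ∏ q ∈ s, b q

omit [Fintype (SL(2, ℤ) ⧸ Γ)] [DecidableEq (SL(2, ℤ) ⧸ Γ)] in
theorem sum_powersetCard_perm (e : Equiv.Perm (SL(2, ℤ) ⧸ Γ)) (j : ℕ)
    (t : Finset (SL(2, ℤ) ⧸ Γ)) (b : SL(2, ℤ) ⧸ Γ → ℍ → ℂ) :
    ∑ s ∈ Finset.powersetCard j t, ∏ q ∈ s, b (e q) =
      ∑ s ∈ Finset.powersetCard j (t.map e.toEmbedding), ∏ q ∈ s, b q := by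
  rw [Finset.powersetCard_map, Finset.sum_map]
  refine Finset.sum_congr rfl fun s _ => ?_
  simp [Finset.mapEmbedding_apply, Finset.prod_map]

theorem esym_slash {k : ℤ} {b : SL(2, ℤ) ⧸ Γ → ℍ → ℂ} (hb : Eqv k b) (j : ℕ) (h : SL(2, ℤ)) :
    esym j b ∣[(j : ℤ) * k] h = esym j b := by
  unfold esym
  rw [SlashAction.sum_slash]
  have h1 : ∀ s ∈ Finset.powersetCard j (Finset.univ : Finset (SL(2, ℤ) ⧸ Γ)),
      (∏ q ∈ s, b q) ∣[(j : ℤ) * k] h = ∏ q ∈ s, b ((MulAction.toPerm h⁻¹) q) := by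
    intro s hs
    have hc : s.card = j := (Finset.mem_powersetCard.mp hs).2
    rw [← hc, prod_slash_SL]
    exact Finset.prod_congr rfl fun q _ => hb h q
  rw [Finset.sum_congr rfl h1, sum_powersetCard_perm, Finset.map_univ_equiv]

theorem psi_slash {ka kb : ℤ} {a b : SL(2, ℤ) ⧸ Γ → ℍ → ℂ} (ha : Eqv ka a) (hb : Eqv kb b)
    (j : ℕ) (h : SL(2, ℤ)) : psi j a b ∣[ka + (j : ℤ) * kb] h = psi j a b := by
  unfold psi
  rw [SlashAction.sum_slash]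
  have h1 : ∀ x : SL(2, ℤ) ⧸ Γ,
      (a x * ∑ s ∈ Finset.powersetCard j ((Finset.univ : Finset (SL(2, ℤ) ⧸ Γ)).erase x),
        ∏ q ∈ s, b q) ∣[ka + (j : ℤ) * kb] h =
      a ((MulAction.toPerm h⁻¹) x) *
        ∑ s ∈ Finset.powersetCard j
          ((Finset.univ : Finset (SL(2, ℤ) ⧸ Γ)).erase ((MulAction.toPerm h⁻¹) x)),
          ∏ q ∈ s, b q := by
    intro x
    rw [ModularForm.mul_slash_SL2, ha h x, SlashAction.sum_slash]
    congr 1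
    have h2 : ∀ s ∈ Finset.powersetCard j ((Finset.univ : Finset (SL(2, ℤ) ⧸ Γ)).erase x),
        (∏ q ∈ s, b q) ∣[(j : ℤ) * kb] h = ∏ q ∈ s, b ((MulAction.toPerm h⁻¹) q) := by
      intro s hs
      have hc : s.card = j := (Finset.mem_powersetCard.mp hs).2
      rw [← hc, prod_slash_SL]
      exact Finset.prod_congr rfl fun q _ => hb h q
    rw [Finset.sum_congr rfl h2, sum_powersetCard_perm, Finset.map_erase, Finset.map_univ_equiv]
    rfl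
  rw [Finset.sum_congr rfl fun x _ => h1 x]
  exact Equiv.sum_comp (MulAction.toPerm h⁻¹)
    (fun x => a x * ∑ s ∈ Finset.powersetCard j
      ((Finset.univ : Finset (SL(2, ℤ) ⧸ Γ)).erase x), ∏ q ∈ s, b q)

/-! ### Pointwise Vieta identities -/

theorem vieta {ι : Type*} (s : Finset ι) (c : ι → ℂ) (T : ℂ) :
    ∏ i ∈ s, (T - c i) = ∑ j ∈ Finset.range (s.card + 1),
      (-1) ^ j * ((∑ u ∈ Finset.powersetCard j s, ∏ i ∈ u, c i) * T ^ (s.card - j)) := by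
  have h := congrArg (Polynomial.eval T) (Multiset.prod_X_sub_X_eq_sum_esymm (s.val.map c))
  rw [Polynomial.eval_multiset_prod, Multiset.map_map, Multiset.map_map] at h
  simp only [Function.comp_def, Polynomial.eval_sub, Polynomial.eval_X, Polynomial.eval_C,
    Multiset.card_map, Finset.card_val, Polynomial.eval_finsetSum, Polynomial.eval_mul,
    Polynomial.eval_pow, Polynomial.eval_neg, Polynomial.eval_one, Finset.esymm_map_val] at h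
  exact h

theorem esym_apply (j : ℕ) (b : SL(2, ℤ) ⧸ Γ → ℍ → ℂ) (z : ℍ) :
    esym j b z =
      ∑ s ∈ Finset.powersetCard j (Finset.univ : Finset (SL(2, ℤ) ⧸ Γ)), ∏ q ∈ s, b q z := by
  simp [esym, Finset.sum_apply, Finset.prod_apply]

theorem psi_apply (j : ℕ) (a b : SL(2, ℤ) ⧸ Γ → ℍ → ℂ) (z : ℍ) :
    psi j a b z = ∑ x : SL(2, ℤ) ⧸ Γ, a x z *
      ∑ s ∈ Finset.powersetCard j ((Finset.univ : Finset (SL(2, ℤ) ⧸ Γ)).erase x),
        ∏ q ∈ s, b q z := by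
  simp [psi, Finset.sum_apply, Finset.prod_apply]

theorem esym_zero_eq (b : SL(2, ℤ) ⧸ Γ → ℍ → ℂ) : esym 0 b = 1 := by
  funext z
  simp [esym_apply]

/-- Every member of the family is a root of the "characteristic polynomial". -/
theorem root_rel (b : SL(2, ℤ) ⧸ Γ → ℍ → ℂ) (q₀ : SL(2, ℤ) ⧸ Γ) (z : ℍ) :
    ∑ j ∈ Finset.range (Fintype.card (SL(2, ℤ) ⧸ Γ) + 1),
      (-1) ^ j * (esym j b z * b q₀ z ^ (Fintype.card (SL(2, ℤ) ⧸ Γ) - j)) = 0 := by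
  have h := vieta (Finset.univ : Finset (SL(2, ℤ) ⧸ Γ)) (fun q => b q z) (b q₀ z)
  rw [Finset.card_univ] at h
  have h0 : ∏ q : SL(2, ℤ) ⧸ Γ, (b q₀ z - b q z) = 0 :=
    Finset.prod_eq_zero (Finset.mem_univ q₀) (sub_self _)
  rw [h0] at h
  rw [h]
  refine Finset.sum_congr rfl fun j _ => ?_
  rw [esym_apply]

/-- Lagrange interpolation identity. -/
theorem lagrange (a b : SL(2, ℤ) ⧸ Γ → ℍ → ℂ) (q₀ : SL(2, ℤ) ⧸ Γ) (z : ℍ) :
    a q₀ z * ∏ q ∈ (Finset.univ : Finset (SL(2, ℤ) ⧸ Γ)).erase q₀, (b q₀ z - b q z) =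
      ∑ j ∈ Finset.range (Fintype.card (SL(2, ℤ) ⧸ Γ)),
        (-1) ^ j * (psi j a b z * b q₀ z ^ (Fintype.card (SL(2, ℤ) ⧸ Γ) - 1 - j)) := by
  set d := Fintype.card (SL(2, ℤ) ⧸ Γ) with hd
  have hdpos : 0 < d := Fintype.card_pos_iff.mpr ⟨q₀⟩
  have hcard : ∀ x : SL(2, ℤ) ⧸ Γ,
      ((Finset.univ : Finset (SL(2, ℤ) ⧸ Γ)).erase x).card = d - 1 := by
    intro x
    rw [Finset.card_erase_of_mem (Finset.mem_univ x), Finset.card_univ]
  -- the sum over `x` of `a x * ∏_{q ≠ x} (T - b q)` at `T = b q₀`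
  have h1 : ∑ x : SL(2, ℤ) ⧸ Γ, a x z *
      ∏ q ∈ (Finset.univ : Finset (SL(2, ℤ) ⧸ Γ)).erase x, (b q₀ z - b q z) =
      a q₀ z * ∏ q ∈ (Finset.univ : Finset (SL(2, ℤ) ⧸ Γ)).erase q₀, (b q₀ z - b q z) := by
    refine Finset.sum_eq_single q₀ ?_ ?_
    · intro x _ hx
      have : q₀ ∈ (Finset.univ : Finset (SL(2, ℤ) ⧸ Γ)).erase x :=
        Finset.mem_erase.mpr ⟨fun h => hx h.symm, Finset.mem_univ _⟩
      rw [Finset.prod_eq_zero this (sub_self _), mul_zero]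
    · intro h
      exact absurd (Finset.mem_univ q₀) h
  rw [← h1]
  have h2 : ∀ x : SL(2, ℤ) ⧸ Γ,
      ∏ q ∈ (Finset.univ : Finset (SL(2, ℤ) ⧸ Γ)).erase x, (b q₀ z - b q z) =
      ∑ j ∈ Finset.range d, (-1) ^ j *
        ((∑ u ∈ Finset.powersetCard j ((Finset.univ : Finset (SL(2, ℤ) ⧸ Γ)).erase x),
          ∏ i ∈ u, b i z) * b q₀ z ^ (d - 1 - j)) := by
    intro x
    have h := vieta ((Finset.univ : Finset (SL(2, ℤ) ⧸ Γ)).erase x) (fun q => b q z) (b q₀ z)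
    rw [hcard x] at h
    have hd1 : d - 1 + 1 = d := Nat.sub_add_cancel hdpos
    rw [hd1] at h
    exact h
  have h3 : ∀ j : ℕ, (-1 : ℂ) ^ j *
      ((∑ x : SL(2, ℤ) ⧸ Γ, a x z *
        ∑ s ∈ Finset.powersetCard j ((Finset.univ : Finset (SL(2, ℤ) ⧸ Γ)).erase x),
          ∏ q ∈ s, b q z) * b q₀ z ^ (d - 1 - j)) =
      ∑ x : SL(2, ℤ) ⧸ Γ, a x z * ((-1) ^ j *
        ((∑ s ∈ Finset.powersetCard j ((Finset.univ : Finset (SL(2, ℤ) ⧸ Γ)).erase x),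
          ∏ q ∈ s, b q z) * b q₀ z ^ (d - 1 - j))) := by
    intro j
    rw [Finset.sum_mul, Finset.mul_sum]
    exact Finset.sum_congr rfl fun x _ => by ring
  simp_rw [h2, psi_apply, h3]
  rw [Finset.sum_comm]
  exact Finset.sum_congr rfl fun x _ => by rw [Finset.mul_sum]

/-! ### Analytic properties -/

omit [Fintype (SL(2, ℤ) ⧸ Γ)] [DecidableEq (SL(2, ℤ) ⧸ Γ)] in
theorem mdiff_sum {ι : Type*} (s : Finset ι) {F : ι → ℍ → ℂ} (hF : ∀ i ∈ s, MDiff (F i)) :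
    MDiff (∑ i ∈ s, F i) := by
  classical
  induction s using Finset.induction_on with
  | empty =>
    rw [Finset.sum_empty]
    exact (mdifferentiable_const : MDiff (fun _ : ℍ => (0 : ℂ)))
  | insert i t hi ih =>
    rw [Finset.sum_insert hi]
    exact (hF i (Finset.mem_insert_self i t)).add
      (ih fun j hj => hF j (Finset.mem_insert_of_mem hj))

omit [Fintype (SL(2, ℤ) ⧸ Γ)] [DecidableEq (SL(2, ℤ) ⧸ Γ)] in
theorem mdiff_prod {ι : Type*} (s : Finset ι) {F : ι → ℍ → ℂ} (hF : ∀ i ∈ s, MDiff (F i)) :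
    MDiff (∏ i ∈ s, F i) := by
  classical
  induction s using Finset.induction_on with
  | empty =>
    rw [Finset.prod_empty]
    exact (mdifferentiable_const : MDiff (fun _ : ℍ => (1 : ℂ)))
  | insert i t hi ih =>
    rw [Finset.prod_insert hi]
    exact (hF i (Finset.mem_insert_self i t)).mul
      (ih fun j hj => hF j (Finset.mem_insert_of_mem hj))

omit [Fintype (SL(2, ℤ) ⧸ Γ)] [DecidableEq (SL(2, ℤ) ⧸ Γ)] in
theorem bdd_sum {ι : Type*} (s : Finset ι) {F : ι → ℍ → ℂ}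
    (hF : ∀ i ∈ s, IsBoundedAtImInfty (F i)) : IsBoundedAtImInfty (∑ i ∈ s, F i) := by
  classical
  induction s using Finset.induction_on with
  | empty =>
    rw [Finset.sum_empty]
    exact Filter.const_boundedAtFilter atImInfty (0 : ℂ)
  | insert i t hi ih =>
    rw [Finset.sum_insert hi]
    exact (hF i (Finset.mem_insert_self i t)).add
      (ih fun j hj => hF j (Finset.mem_insert_of_mem hj))

omit [Fintype (SL(2, ℤ) ⧸ Γ)] [DecidableEq (SL(2, ℤ) ⧸ Γ)] in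
theorem bdd_prod {ι : Type*} (s : Finset ι) {F : ι → ℍ → ℂ}
    (hF : ∀ i ∈ s, IsBoundedAtImInfty (F i)) : IsBoundedAtImInfty (∏ i ∈ s, F i) := by
  classical
  induction s using Finset.induction_on with
  | empty =>
    rw [Finset.prod_empty]
    exact Filter.const_boundedAtFilter atImInfty (1 : ℂ)
  | insert i t hi ih =>
    rw [Finset.prod_insert hi]
    exact (hF i (Finset.mem_insert_self i t)).mul
      (ih fun j hj => hF j (Finset.mem_insert_of_mem hj))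

omit [Fintype (SL(2, ℤ) ⧸ Γ)] [DecidableEq (SL(2, ℤ) ⧸ Γ)] in
theorem zero_sum {ι : Type*} (s : Finset ι) {F : ι → ℍ → ℂ}
    (hF : ∀ i ∈ s, IsZeroAtImInfty (F i)) : IsZeroAtImInfty (∑ i ∈ s, F i) := by
  classical
  induction s using Finset.induction_on with
  | empty =>
    rw [Finset.sum_empty]
    exact Filter.zero_zeroAtFilter atImInfty
  | insert i t hi ih =>
    rw [Finset.sum_insert hi]
    exact (hF i (Finset.mem_insert_self i t)).add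
      (ih fun j hj => hF j (Finset.mem_insert_of_mem hj))

omit [Fintype (SL(2, ℤ) ⧸ Γ)] [DecidableEq (SL(2, ℤ) ⧸ Γ)] in
theorem zero_mul_bdd {f g : ℍ → ℂ} (hf : IsZeroAtImInfty f) (hg : IsBoundedAtImInfty g) :
    IsZeroAtImInfty (f * g) := by
  have h1 : f =o[atImInfty] (fun _ => (1 : ℝ)) := (Asymptotics.isLittleO_one_iff ℝ).mpr hf
  have h2 : g =O[atImInfty] (fun _ => (1 : ℝ)) := hg
  have h3 := h1.mul_isBigO h2
  simp only [mul_one] at h3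
  exact (Asymptotics.isLittleO_one_iff ℝ).mp h3

omit [Fintype (SL(2, ℤ) ⧸ Γ)] [DecidableEq (SL(2, ℤ) ⧸ Γ)] in
theorem zero_prod {ι : Type*} (s : Finset ι) (hs : s.Nonempty) {F : ι → ℍ → ℂ}
    (hF : ∀ i ∈ s, IsZeroAtImInfty (F i)) : IsZeroAtImInfty (∏ i ∈ s, F i) := by
  classical
  obtain ⟨i, hi⟩ := hs
  rw [← Finset.mul_prod_erase s F hi]
  have h1 : IsBoundedAtImInfty (∏ j ∈ s.erase i, F j) :=
    bdd_prod _ fun j hj => (hF j (Finset.mem_of_mem_erase hj)).boundedAtFilter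
  exact zero_mul_bdd (hF i hi) h1

theorem esym_mdiff {b : SL(2, ℤ) ⧸ Γ → ℍ → ℂ} (hb : ∀ q, MDiff (b q)) (j : ℕ) :
    MDiff (esym j b) :=
  mdiff_sum _ fun _ _ => mdiff_prod _ fun q _ => hb q

theorem esym_bdd {b : SL(2, ℤ) ⧸ Γ → ℍ → ℂ} (hb : ∀ q, IsBoundedAtImInfty (b q)) (j : ℕ) :
    IsBoundedAtImInfty (esym j b) :=
  bdd_sum _ fun _ _ => bdd_prod _ fun q _ => hb q

theorem esym_zero {b : SL(2, ℤ) ⧸ Γ → ℍ → ℂ} (hb : ∀ q, IsZeroAtImInfty (b q)) {j : ℕ}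
    (hj : 1 ≤ j) : IsZeroAtImInfty (esym j b) := by
  refine zero_sum _ fun s hs => zero_prod _ ?_ fun q _ => hb q
  have hc : s.card = j := (Finset.mem_powersetCard.mp hs).2
  exact Finset.card_pos.mp (by omega)

theorem psi_mdiff {a b : SL(2, ℤ) ⧸ Γ → ℍ → ℂ} (ha : ∀ q, MDiff (a q)) (hb : ∀ q, MDiff (b q))
    (j : ℕ) : MDiff (psi j a b) :=
  mdiff_sum _ fun x _ => (ha x).mul (mdiff_sum _ fun _ _ => mdiff_prod _ fun q _ => hb q)

theorem psi_bdd {a b : SL(2, ℤ) ⧸ Γ → ℍ → ℂ} (ha : ∀ q, IsBoundedAtImInfty (a q))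
    (hb : ∀ q, IsBoundedAtImInfty (b q)) (j : ℕ) : IsBoundedAtImInfty (psi j a b) :=
  bdd_sum _ fun x _ => (ha x).mul (bdd_sum _ fun _ _ => bdd_prod _ fun q _ => hb q)

omit [Fintype (SL(2, ℤ) ⧸ Γ)] [DecidableEq (SL(2, ℤ) ⧸ Γ)] in
/-- Package an `SL(2, ℤ)`-invariant holomorphic function bounded at `i∞` as a level one form. -/
def mkLevelOne (F : ℍ → ℂ) (w : ℤ) (hinv : ∀ h : SL(2, ℤ), F ∣[w] h = F) (hhol : MDiff F)
    (hbdd : IsBoundedAtImInfty F) : ModularForm 𝒮ℒ w where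
  toFun := F
  slash_action_eq' := by
    rintro _ ⟨h, rfl⟩
    exact hinv h
  holo' := hhol
  bdd_at_cusps' := by
    intro c hc
    rw [isCusp_SL2Z_iff'] at hc
    obtain ⟨g, rfl⟩ := hc
    rw [OnePoint.IsBoundedAt.smul_iff, OnePoint.isBoundedAt_infty_iff]
    have h1 : F ∣[w] (mapGL ℝ g) = F := hinv g
    rw [h1]
    exact hbdd

omit [Fintype (SL(2, ℤ) ⧸ Γ)] [DecidableEq (SL(2, ℤ) ⧸ Γ)] in
@[simp] theorem coe_mkLevelOne (F : ℍ → ℂ) (w : ℤ) (hinv : ∀ h : SL(2, ℤ), F ∣[w] h = F)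
    (hhol : MDiff F) (hbdd : IsBoundedAtImInfty F) : ⇑(mkLevelOne F w hinv hhol hbdd) = F := rfl

end Fermat.Agent.S23Lib.Sym
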