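/-
S23 helper library, part (B): Galois descent.
* `exists_ringAut_ne`: the fixed field of `Aut(ℂ)` is `ℚ`.
* `rat_span_of_twist`: a finite-dimensional space of "q-expansions" stable under all
  automorphisms of `ℂ` is spanned by its rational points.
* `finiteDimensional_cuspForm`: `S_k(Γ₀(N))` is finite-dimensional (Sturm bound).
-/
import Mathlib
import Fermat.Agent.S49Lib.QExp
import Fermat.Prelude.Thm_ModularForm_sturm_bound_Gamma0

set_option autoImplicit false

namespace Fermat.Agent.S23Lib.Descent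

open MvPolynomial

/-- Any ring automorphism of the polynomial ring on a transcendence basis of `ℂ` over a
subfield extends to a ring automorphism of `ℂ`. -/
theorem exists_ringAut_of_mvPolynomial {F : Type*} [Field F] [Algebra F ℂ] {ι : Type*}
    (v : ι → ℂ) (hv : IsTranscendenceBasis F v)
    (e : MvPolynomial ι F ≃+* MvPolynomial ι F) :
    ∃ σ : ℂ ≃+* ℂ, ∀ p : MvPolynomial ι F, σ (aeval v p) = aeval v (e p) := by
  let _ := IsAlgClosed.isAlgClosure_of_transcendence_basis v hv
  let E : Algebra.adjoin F (Set.range v) ≃+* Algebra.adjoin F (Set.range v) :=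
    hv.1.aevalEquiv.symm.toRingEquiv.trans (e.trans hv.1.aevalEquiv.toRingEquiv)
  refine ⟨IsAlgClosure.equivOfEquiv ℂ ℂ E, fun p => ?_⟩
  rw [← hv.1.algebraMap_aevalEquiv p, IsAlgClosure.equivOfEquiv_algebraMap,
    ← hv.1.algebraMap_aevalEquiv (e p)]
  congr 1
  simp [E]

/-- A complex number algebraic over `ℚ` but not rational is moved by some automorphism. -/
theorem exists_ringAut_ne_of_isAlgebraic (x : ℂ) (hx : ∀ r : ℚ, x ≠ (r : ℂ))
    (halg : IsAlgebraic ℚ x) : ∃ σ : ℂ ≃+* ℂ, σ x ≠ x := by
  have hxK : x ∈ algebraicClosure ℚ ℂ := mem_algebraicClosure_iff'.mpr halg.isIntegral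
  set x' : algebraicClosure ℚ ℂ := ⟨x, hxK⟩ with hx'
  have hgal : IsGalois ℚ (algebraicClosure ℚ ℂ) :=
    @IsAlgClosure.isGalois ℚ (algebraicClosure ℚ ℂ) _ _ _ (algebraicClosure.isAlgClosure ℚ ℂ) _
  have hnot : x' ∉ Set.range (algebraMap ℚ (algebraicClosure ℚ ℂ)) := by
    rintro ⟨r, hr⟩
    apply hx r
    have := congrArg (fun y : algebraicClosure ℚ ℂ => (y : ℂ)) hr
    simpa using this.symm
  rw [InfiniteGalois.mem_range_algebraMap_iff_fixed] at hnot
  push Not at hnot
  obtain ⟨τ, hτ⟩ := hnot
  obtain ⟨ι, v, hv⟩ := exists_isTranscendenceBasis' (algebraicClosure ℚ ℂ) ℂ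
  obtain ⟨σ, hσ⟩ := exists_ringAut_of_mvPolynomial v hv
    (MvPolynomial.mapEquiv ι (τ : algebraicClosure ℚ ℂ ≃+* algebraicClosure ℚ ℂ))
  refine ⟨σ, fun h => hτ ?_⟩
  have h1 := hσ (C x')
  simp only [aeval_C, MvPolynomial.mapEquiv_apply, map_C] at h1
  have h2 : algebraMap (algebraicClosure ℚ ℂ) ℂ x' = x := rfl
  rw [h2, h] at h1
  exact Subtype.ext h1.symm

/-- the sign-flip automorphism of a polynomial ring at one variable -/
noncomputable def negAt {ι : Type*} [DecidableEq ι] (i₀ : ι) :
    MvPolynomial ι ℚ ≃ₐ[ℚ] MvPolynomial ι ℚ :=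
  AlgEquiv.ofAlgHom (aeval fun i => if i = i₀ then -X i else X i)
    (aeval fun i => if i = i₀ then -X i else X i)
    (by ext i; by_cases h : i = i₀ <;> simp [h])
    (by ext i; by_cases h : i = i₀ <;> simp [h])

/-- A transcendental complex number is moved by some automorphism. -/
theorem exists_ringAut_ne_of_transcendental (x : ℂ) (htr : Transcendental ℚ x) :
    ∃ σ : ℂ ≃+* ℂ, σ x ≠ x := by
  classical
  have hind : AlgebraicIndepOn ℚ id ({x} : Set ℂ) := by
    rw [AlgebraicIndepOn]
    exact (algebraicIndependent_singleton_iff (⟨x, rfl⟩ : ({x} : Set ℂ))).mpr htr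
  obtain ⟨t, hxt, ht⟩ := exists_isTranscendenceBasis_superset hind
  have hxt' : x ∈ t := hxt rfl
  obtain ⟨σ, hσ⟩ := exists_ringAut_of_mvPolynomial _ ht
    (negAt (⟨x, hxt'⟩ : t)).toRingEquiv
  refine ⟨σ, fun h => ?_⟩
  have h1 := hσ (X ⟨x, hxt'⟩)
  simp only [aeval_X, negAt, AlgEquiv.coe_ringEquiv,
    AlgEquiv.ofAlgHom_apply, if_true, map_neg] at h1
  rw [h] at h1
  have hx0 : x = 0 := by linear_combination h1 / 2
  exact htr (hx0 ▸ isAlgebraic_zero)

/-- The fixed field of `Aut(ℂ)` is `ℚ`. -/
theorem exists_ringAut_ne (x : ℂ) (hx : ∀ r : ℚ, x ≠ (r : ℂ)) : ∃ σ : ℂ ≃+* ℂ, σ x ≠ x := by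
  by_cases halg : IsAlgebraic ℚ x
  · exact exists_ringAut_ne_of_isAlgebraic x hx halg
  · exact exists_ringAut_ne_of_transcendental x halg

/-- Galois descent for a finite-dimensional space of "q-expansions": if the coordinate
functionals `a n` separate points and the space is stable under twisting by every
automorphism of `ℂ`, then it is spanned by its rational points. -/
theorem rat_span_of_twist {V : Type*} [AddCommGroup V] [Module ℂ V] [FiniteDimensional ℂ V]
    (a : ℕ → V →ₗ[ℂ] ℂ) (hsep : ∀ v, (∀ n, a n v = 0) → v = 0)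
    (htw : ∀ (σ : ℂ ≃+* ℂ) (v : V), ∃ w : V, ∀ n, a n w = σ (a n v)) :
    Submodule.span ℂ {v : V | ∀ n, ∃ r : ℚ, a n v = (r : ℂ)} = ⊤ := by
  classical
  -- the `a n` span the dual space
  have hspan : ⊤ ≤ Submodule.span ℂ (Set.range a) := by
    rw [← Subspace.dualCoannihilator_dualAnnihilator_eq (W := Submodule.span ℂ (Set.range a))]
    have : (Submodule.span ℂ (Set.range a)).dualCoannihilator = ⊥ := by
      rw [eq_bot_iff]
      intro v hv
      rw [Submodule.mem_dualCoannihilator] at hv
      exact (Submodule.mem_bot ℂ).mpr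
        (hsep v fun n => hv (a n) (Submodule.subset_span ⟨n, rfl⟩))
    rw [this, Submodule.dualAnnihilator_bot]
  -- a basis of the dual consisting of some of the `a n`
  let B := Module.Basis.ofSpan hspan
  have hBa : ∀ i, ∃ n, a n = B i := fun i => Module.Basis.ofSpan_subset hspan ⟨i, rfl⟩
  choose m hm using hBa
  have : Finite ((linearIndepOn_empty ℂ id).extend (Set.empty_subset (Set.range a))) :=
    Module.Finite.finite_basis B
  -- the dual basis of `V`
  let e := B.dualBasis.map (Module.evalEquiv ℂ V).symm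
  have hBe : ∀ i j, B i (e j) = if i = j then 1 else 0 := by
    intro i j
    simp only [e, Module.Basis.map_apply, Module.apply_evalEquiv_symm_apply]
    exact Module.Basis.dualBasis_apply_self B j i
  have hzero : ∀ u : V, (∀ i, B i u = 0) → u = 0 := by
    intro u hu
    apply hsep
    intro n
    have key : ∀ φ ∈ Submodule.span ℂ (Set.range B), φ u = 0 := by
      intro φ hφ
      induction hφ using Submodule.span_induction with
      | mem x hx => obtain ⟨i, rfl⟩ := hx; exact hu i
      | zero => rfl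
      | add x y _ _ hx hy => rw [LinearMap.add_apply, hx, hy, add_zero]
      | smul c x _ hx => rw [LinearMap.smul_apply, hx, smul_zero]
    exact key _ (by rw [B.span_eq]; trivial)
  -- each `e j` is rational
  have hrat : ∀ j n, ∃ r : ℚ, a n (e j) = (r : ℂ) := by
    intro j n
    by_contra hcon
    push Not at hcon
    obtain ⟨σ, hσ⟩ := exists_ringAut_ne (a n (e j)) hcon
    obtain ⟨w, hw⟩ := htw σ (e j)
    have hwe : w = e j := by
      rw [← sub_eq_zero]
      apply hzero
      intro i
      rw [map_sub, ← hm i, hw (m i), hm i, hBe]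
      split_ifs <;> simp
    apply hσ
    rw [← hw n, hwe]
  rw [eq_top_iff, ← e.span_eq]
  apply Submodule.span_mono
  rintro _ ⟨j, rfl⟩
  exact hrat j


open CongruenceSubgroup ModularFormClass UpperHalfPlane Fermat.Agent.S49Lib in
/-- `S_k(Γ₀(N))` is finite-dimensional, by the Sturm bound. -/
theorem finiteDimensional_cuspForm (N : ℕ) [NeZero N] (k : ℤ) :
    FiniteDimensional ℂ (CuspForm (Gamma0 N) k) := by
  let Φ : CuspForm (Gamma0 N) k →ₗ[ℂ]
      (Fin ((k * (Gamma0 N).index).toNat / 12 + 1) → ℂ) :=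
    { toFun := fun f n => qCoeff (⇑f) n
      map_add' := fun f g => funext fun n => qCoeff_add f g n
      map_smul' := fun c f => funext fun n => by simpa using qCoeff_smul c f n }
  have hΦ : Function.Injective Φ := by
    rw [← LinearMap.ker_eq_bot, LinearMap.ker_eq_bot']
    intro f hf
    apply CuspForm.toModularFormₗ_injective
    rw [_root_.map_zero]
    apply ModularForm.sturm_bound_Gamma0 N
    intro n hn
    exact congrFun hf ⟨n, by omega⟩
  exact FiniteDimensional.of_injective Φ hΦ

end Fermat.Agent.S23Lib.Descent
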