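/-
S23 helper library, part (C): bounded denominators.
A weight-2 cusp form on Γ₀(N) with rational q-coefficients is a rational multiple of a
form with integral q-coefficients.  Uses S22 (the Hecke algebra is a finite ℤ-module).
-/
import Mathlib
import Fermat.Agent.S22
import Fermat.Agent.S49Lib.QExp
import Fermat.Agent.S49Lib.Arith
import Fermat.Prelude.Def_CuspForm_IntegralStructure

set_option autoImplicit false

namespace Fermat.Agent.S23Lib.Denom

open CongruenceSubgroup ModularFormClass UpperHalfPlane Fermat.Agent.S49Lib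

variable {N : ℕ}

/-- The `n`-th q-coefficient as a linear functional on weight-2 cusp forms. -/
noncomputable def coeffLin (N : ℕ) (n : ℕ) : CuspForm (Gamma0 N) 2 →ₗ[ℂ] ℂ where
  toFun f := qCoeff (⇑f) n
  map_add' f g := qCoeff_add f g n
  map_smul' c f := by simpa using qCoeff_smul c f n

@[simp] theorem coeffLin_apply (n : ℕ) (f : CuspForm (Gamma0 N) 2) :
    coeffLin N n f = qCoeff (⇑f) n := rfl

variable [NeZero N]

/-- For `n ≥ 1` the functional `aₙ` is `a₁ ∘ t` for some `t` in the (full) Hecke algebra. -/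
theorem exists_hecke_coeffLin (n : ℕ) (hn : 1 ≤ n) :
    ∃ t ∈ CuspForm.heckeAlgebra N 2 ∅, (coeffLin N 1).comp t = coeffLin N n := by
  induction n using Nat.strong_induction_on with
  | _ n ih =>
    rcases Nat.lt_or_ge n 2 with hn2 | hn2
    · obtain rfl : n = 1 := by omega
      exact ⟨1, one_mem _, rfl⟩
    · obtain ⟨p, hp, m, rfl, hm0, hmlt⟩ := exists_prime_factorisation hn2
      obtain ⟨tm, htm, htm'⟩ := ih m hmlt (Nat.pos_of_ne_zero hm0)
      by_cases hpN : p ∣ N
      · refine ⟨tm * CuspForm.heckeULin 2 hpN,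
          mul_mem htm (CuspForm.heckeULin_mem_heckeAlgebra hp hpN (Set.notMem_empty p)), ?_⟩
        ext g
        have h1 := LinearMap.congr_fun htm' (CuspForm.heckeULin 2 hpN g)
        simp only [LinearMap.comp_apply, coeffLin_apply] at h1
        simp only [LinearMap.comp_apply, coeffLin_apply, Module.End.mul_apply]
        rw [h1, qCoeff_heckeULin hp hpN]
      · by_cases hpm : p ∣ m
        · have hmp0 : m / p ≠ 0 := by
            obtain ⟨c, rfl⟩ := hpm
            rw [Nat.mul_div_cancel_left _ hp.pos]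
            rintro rfl
            simp at hm0
          have hmplt : m / p < m * p := lt_of_le_of_lt (Nat.div_le_self m p) hmlt
          obtain ⟨tq, htq, htq'⟩ := ih (m / p) hmplt (Nat.pos_of_ne_zero hmp0)
          refine ⟨tm * CuspForm.heckeTLin 2 hp hpN - (p : ℤ) • tq,
            sub_mem (mul_mem htm
              (CuspForm.heckeTLin_mem_heckeAlgebra hp hpN (Set.notMem_empty p)))
              (zsmul_mem htq _), ?_⟩
          ext g
          have h1 := LinearMap.congr_fun htm' (CuspForm.heckeTLin 2 hp hpN g)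
          have h2 := LinearMap.congr_fun htq' g
          simp only [LinearMap.comp_apply, coeffLin_apply] at h1 h2
          rw [LinearMap.comp_apply, LinearMap.sub_apply, Module.End.mul_apply,
            LinearMap.smul_apply, map_sub, map_zsmul, zsmul_eq_mul]
          simp only [coeffLin_apply]
          rw [h1, h2, qCoeff_heckeTLin hp hpN, if_pos hpm]
          push_cast
          ring
        · refine ⟨tm * CuspForm.heckeTLin 2 hp hpN,
            mul_mem htm (CuspForm.heckeTLin_mem_heckeAlgebra hp hpN (Set.notMem_empty p)), ?_⟩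
          ext g
          have h1 := LinearMap.congr_fun htm' (CuspForm.heckeTLin 2 hp hpN g)
          simp only [LinearMap.comp_apply, coeffLin_apply] at h1
          simp only [LinearMap.comp_apply, coeffLin_apply, Module.End.mul_apply]
          rw [h1, qCoeff_heckeTLin hp hpN, if_neg hpm, add_zero]

/-- `aₙ(g) = a₁(t g)` for a suitable Hecke operator `t`. -/
theorem exists_hecke_coeff (n : ℕ) (hn : 1 ≤ n) :
    ∃ t ∈ CuspForm.heckeAlgebra N 2 ∅, ∀ g : CuspForm (Gamma0 N) 2,
      qCoeff (⇑(t g)) 1 = qCoeff (⇑g) n := by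
  obtain ⟨t, ht, h⟩ := exists_hecke_coeffLin (N := N) n hn
  exact ⟨t, ht, fun g => LinearMap.congr_fun h g⟩

/-- Forms with rational q-coefficients. -/
def IsRat (f : CuspForm (Gamma0 N) 2) : Prop := ∀ n : ℕ, ∃ r : ℚ, qCoeff (⇑f) n = (r : ℂ)

omit [NeZero N] in
theorem IsRat.add {f g : CuspForm (Gamma0 N) 2} (hf : IsRat f) (hg : IsRat g) :
    IsRat (f + g) := fun n => by
  obtain ⟨r, hr⟩ := hf n
  obtain ⟨s, hs⟩ := hg n
  exact ⟨r + s, by rw [qCoeff_add, hr, hs]; push_cast; rfl⟩

omit [NeZero N] in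
theorem IsRat.smul_rat {f : CuspForm (Gamma0 N) 2} (hf : IsRat f) (c : ℚ) :
    IsRat ((c : ℂ) • f) := fun n => by
  obtain ⟨r, hr⟩ := hf n
  exact ⟨c * r, by rw [qCoeff_smul, hr]; push_cast; rfl⟩

/-- Every element of the Hecke algebra preserves rationality of q-expansions. -/
theorem isRat_of_mem_heckeAlgebra {t : Module.End ℂ (CuspForm (Gamma0 N) 2)}
    (ht : t ∈ CuspForm.heckeAlgebra N 2 ∅) :
    ∀ f : CuspForm (Gamma0 N) 2, IsRat f → IsRat (t f) := by
  induction ht using Algebra.adjoin_induction with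
  | mem x hx =>
    intro f hf n
    rcases hx with ⟨ℓ, hℓ, hℓN, -, rfl⟩ | ⟨q, hqN, hq, -, rfl⟩
    · rw [qCoeff_heckeTLin hℓ hℓN]
      obtain ⟨r, hr⟩ := hf (n * ℓ)
      obtain ⟨s, hs⟩ := hf (n / ℓ)
      by_cases h : ℓ ∣ n
      · exact ⟨r + ℓ * s, by rw [if_pos h, hr, hs]; push_cast; rfl⟩
      · exact ⟨r, by rw [if_neg h, hr, add_zero]⟩
    · rw [qCoeff_heckeULin hq hqN]
      exact hf (n * q)
  | algebraMap r =>
    intro f hf
    have : (algebraMap ℤ (Module.End ℂ (CuspForm (Gamma0 N) 2)) r) f = ((r : ℚ) : ℂ) • f := by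
      rw [Algebra.algebraMap_eq_smul_one, LinearMap.smul_apply, Module.End.one_apply]
      simp [Int.cast_smul_eq_zsmul]
    rw [this]
    exact hf.smul_rat r
  | add x y _ _ hx hy =>
    intro f hf
    rw [LinearMap.add_apply]
    exact (hx f hf).add (hy f hf)
  | mul x y _ _ hx hy =>
    intro f hf
    rw [Module.End.mul_apply]
    exact hx _ (hy f hf)

/-- The additive map `t ↦ a₁(t f)` on the Hecke algebra. -/
noncomputable def evalOne (f : CuspForm (Gamma0 N) 2) : CuspForm.heckeAlgebra N 2 ∅ →+ ℂ where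
  toFun t := coeffLin N 1 ((t : Module.End ℂ (CuspForm (Gamma0 N) 2)) f)
  map_zero' := by
    rw [ZeroMemClass.coe_zero, LinearMap.zero_apply, map_zero]
  map_add' x y := by
    rw [Subalgebra.coe_add, LinearMap.add_apply, map_add]

theorem evalOne_apply (f : CuspForm (Gamma0 N) 2) (t : CuspForm.heckeAlgebra N 2 ∅) :
    evalOne f t = qCoeff (⇑((t : Module.End ℂ (CuspForm (Gamma0 N) 2)) f)) 1 := rfl

/-- A finitely generated subgroup of `ℂ` consisting of rationals has a common denominator. -/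
theorem exists_denom_of_span {ι : Type*} (s : Finset ι) (v : ι → ℂ) (r : ι → ℚ)
    (hr : ∀ i ∈ s, v i = (r i : ℂ)) :
    ∃ M : ℕ, M ≠ 0 ∧ ∀ z ∈ AddSubgroup.closure (v '' (s : Set ι)),
      ∃ m : ℤ, (M : ℂ) * z = (m : ℂ) := by
  classical
  refine ⟨∏ i ∈ s, (r i).den, Finset.prod_ne_zero_iff.mpr fun i _ => (r i).den_ne_zero, ?_⟩
  intro z hz
  induction hz using AddSubgroup.closure_induction with
  | mem z hz =>
    obtain ⟨i, hi, rfl⟩ := hz
    obtain ⟨c, hc⟩ : (r i).den ∣ ∏ i ∈ s, (r i).den := Finset.dvd_prod_of_mem _ hi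
    refine ⟨c * (r i).num, ?_⟩
    have hden : ((r i).den : ℂ) ≠ 0 := by exact_mod_cast (r i).den_ne_zero
    have hri : ((r i : ℚ) : ℂ) = ((r i).num : ℂ) / ((r i).den : ℂ) := by
      conv_lhs => rw [← Rat.num_div_den (r i)]
      push_cast
      ring
    rw [hr i hi, hc, hri]
    push_cast
    field_simp
  | zero => exact ⟨0, by simp⟩
  | add x y _ _ hx hy =>
    obtain ⟨a, ha⟩ := hx
    obtain ⟨b, hb⟩ := hy
    exact ⟨a + b, by rw [mul_add, ha, hb]; push_cast; ring⟩
  | neg x _ hx =>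
    obtain ⟨a, ha⟩ := hx
    exact ⟨-a, by rw [mul_neg, ha]; push_cast; ring⟩

/-- Key lemma: for a rational form `f` there is a common denominator for all `a₁(t f)`,
`t` in the Hecke algebra. -/
theorem exists_denom_hecke (f : CuspForm (Gamma0 N) 2) (hf : IsRat f) :
    ∃ M : ℕ, M ≠ 0 ∧ ∀ t ∈ CuspForm.heckeAlgebra N 2 ∅,
      ∃ m : ℤ, (M : ℂ) * qCoeff (⇑(t f)) 1 = (m : ℂ) := by
  classical
  have hfin : Module.Finite ℤ (CuspForm.heckeAlgebra N 2 ∅) := Fermat.Agent.S22.result N 2 ∅
  obtain ⟨s, hs⟩ := hfin.fg_top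
  have hrat : ∀ t : CuspForm.heckeAlgebra N 2 ∅, ∃ r : ℚ, evalOne f t = (r : ℂ) :=
    fun t => isRat_of_mem_heckeAlgebra t.2 f hf 1
  choose r hr using hrat
  obtain ⟨M, hM0, hM⟩ := exists_denom_of_span s (evalOne f) r (fun i _ => hr i)
  refine ⟨M, hM0, fun t ht => ?_⟩
  have hmem : (⟨t, ht⟩ : CuspForm.heckeAlgebra N 2 ∅) ∈
      AddSubgroup.closure (s : Set (CuspForm.heckeAlgebra N 2 ∅)) := by
    have h1 : (⟨t, ht⟩ : CuspForm.heckeAlgebra N 2 ∅) ∈
        Submodule.span ℤ (s : Set (CuspForm.heckeAlgebra N 2 ∅)) := by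
      rw [hs]; exact Submodule.mem_top
    rwa [← Submodule.mem_toAddSubgroup, Submodule.span_int_eq_addSubgroupClosure] at h1
  have h2 : evalOne f ⟨t, ht⟩ ∈ AddSubgroup.closure (evalOne f '' (s : Set _)) := by
    rw [← AddMonoidHom.map_closure]
    exact AddSubgroup.mem_map_of_mem _ hmem
  exact hM _ h2

/-- Bounded denominators: a rational form has an integral nonzero multiple. -/
theorem exists_nat_smul_mem_intLattice (f : CuspForm (Gamma0 N) 2) (hf : IsRat f) :
    ∃ M : ℕ, M ≠ 0 ∧ (M : ℂ) • f ∈ CuspForm.intLattice N 2 := by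
  obtain ⟨M, hM0, hM⟩ := exists_denom_hecke f hf
  refine ⟨M, hM0, Submodule.subset_span ?_⟩
  intro n
  rcases Nat.eq_zero_or_pos n with rfl | hn
  · exact ⟨0, by rw [qCoeff_cusp_zero]; simp⟩
  · obtain ⟨t, ht, htn⟩ := exists_hecke_coeff (N := N) n hn
    obtain ⟨m, hm⟩ := hM t ht
    exact ⟨m, by rw [qCoeff_smul, ← htn f, hm]⟩

/-- Part (C): a cusp form with rational q-coefficients lies in the ℂ-span of the
integral lattice. -/
theorem mem_span_intLattice_of_rat (f : CuspForm (Gamma0 N) 2)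
    (hf : ∀ n : ℕ, ∃ r : ℚ, qCoeff (⇑f) n = (r : ℂ)) :
    f ∈ Submodule.span ℂ
      ((CuspForm.intLattice N 2 : Submodule ℤ (CuspForm (Gamma0 N) 2)) :
        Set (CuspForm (Gamma0 N) 2)) := by
  obtain ⟨M, hM0, hM⟩ := exists_nat_smul_mem_intLattice f hf
  have hMC : (M : ℂ) ≠ 0 := by exact_mod_cast hM0
  have : f = (M : ℂ)⁻¹ • ((M : ℂ) • f) := by rw [smul_smul, inv_mul_cancel₀ hMC, one_smul]
  rw [this]
  exact Submodule.smul_mem _ _ (Submodule.subset_span hM)

end Fermat.Agent.S23Lib.Denom
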