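/-
S23 helper library, part (A1): the rational structure of level-one modular forms.
* `discriminant_isRat`: the q-expansion of `Δ` has rational coefficients.
* `levelOne_twist`: for every ring automorphism `σ` of `ℂ` and every level-one modular form
  `φ` there is a level-one modular form of the same weight whose q-expansion is the
  `σ`-conjugate of that of `φ`.
-/
import Mathlib

set_option autoImplicit false

namespace Fermat.Agent.S23Lib.LevelOne

open UpperHalfPlane ModularForm ModularFormClass MatrixGroups EisensteinSeries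

/-- Power series over `ℂ` with rational coefficients, as a subring. -/
noncomputable def ratPS : Subring (PowerSeries ℂ) := (PowerSeries.map (algebraMap ℚ ℂ)).range

theorem mem_ratPS_iff {p : PowerSeries ℂ} :
    p ∈ ratPS ↔ ∀ n, ∃ r : ℚ, p.coeff n = (r : ℂ) := by
  constructor
  · rintro ⟨p₀, rfl⟩ n
    exact ⟨p₀.coeff n, by simp⟩
  · intro h
    choose r hr using h
    refine ⟨PowerSeries.mk r, ?_⟩
    ext n
    simp [hr n]

/-- A ring automorphism of `ℂ` fixes power series with rational coefficients. -/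
theorem map_eq_of_mem_ratPS (σ : ℂ →+* ℂ) {p : PowerSeries ℂ} (hp : p ∈ ratPS) :
    p.map σ = p := by
  obtain ⟨p₀, rfl⟩ := hp
  ext n
  simp

theorem smul_mem_ratPS (r : ℚ) {p : PowerSeries ℂ} (hp : p ∈ ratPS) :
    (r : ℂ) • p ∈ ratPS := by
  rw [mem_ratPS_iff] at hp ⊢
  intro n
  obtain ⟨s, hs⟩ := hp n
  exact ⟨r * s, by simp [hs]⟩

/-- The Eisenstein series `E_k` has rational q-expansion. -/
theorem E_mem_ratPS {k : ℕ} (hk : 3 ≤ k) (hk2 : Even k) :
    qExpansion 1 (E hk) ∈ ratPS := by
  rw [mem_ratPS_iff]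
  intro n
  rw [E_qExpansion_coeff hk hk2]
  by_cases hn : n = 0
  · exact ⟨1, by simp [hn]⟩
  · refine ⟨-(2 * k / bernoulli k) * (ArithmeticFunction.sigma (k - 1) n : ℚ), ?_⟩
    rw [if_neg hn]
    push_cast
    rfl

/-- The combination `E₄³ - E₆²` as a level-one form of weight 12. -/
noncomputable def e4CubeSubE6Sq : ModularForm 𝒮ℒ 12 :=
  ModularForm.mcast (by decide) (E₄.pow 3) - ModularForm.mcast (by decide) (E₆.pow 2)

theorem qExpansion_e4CubeSubE6Sq :
    qExpansion 1 e4CubeSubE6Sq = qExpansion 1 E₄ ^ 3 - qExpansion 1 E₆ ^ 2 := by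
  simp only [e4CubeSubE6Sq, FunLike.coe_sub, coe_mcast,
    ModularForm.qExpansion_sub one_pos one_mem_strictPeriods_SL,
    ModularForm.qExpansion_pow one_pos one_mem_strictPeriods_SL]

theorem e4CubeSubE6Sq_eq : (e4CubeSubE6Sq : ℍ → ℂ) = (1728 : ℂ) • ⇑CuspForm.discriminant := by
  funext z
  have h := discriminant_eq_E₄_cube_sub_E₆_sq z
  have h1 : e4CubeSubE6Sq z = E₄ z ^ 3 - E₆ z ^ 2 := by
    simp only [e4CubeSubE6Sq, coe_mcast, coe_pow, sub_apply, Pi.pow_apply]
  rw [h1, Pi.smul_apply, smul_eq_mul]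
  have h2 : (CuspForm.discriminant : ℍ → ℂ) z = discriminant z := rfl
  rw [h2, h]
  ring

/-- The q-expansion of the discriminant has rational coefficients (power-series form). -/
theorem discriminant_mem_ratPS : qExpansion 1 ModularForm.discriminant ∈ ratPS := by
  have h1 : qExpansion 1 (e4CubeSubE6Sq : ℍ → ℂ) =
      (1728 : ℂ) • qExpansion 1 (CuspForm.discriminant : ℍ → ℂ) := by
    rw [e4CubeSubE6Sq_eq]
    exact ModularForm.qExpansion_smul one_pos one_mem_strictPeriods_SL 1728
      CuspForm.discriminant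
  have h2 : qExpansion 1 (CuspForm.discriminant : ℍ → ℂ) =
      ((1 / 1728 : ℚ) : ℂ) • (qExpansion 1 E₄ ^ 3 - qExpansion 1 E₆ ^ 2) := by
    rw [← qExpansion_e4CubeSubE6Sq, h1, smul_smul]
    norm_num
  have h3 : (CuspForm.discriminant : ℍ → ℂ) = ModularForm.discriminant := rfl
  rw [← h3, h2]
  exact smul_mem_ratPS _ (sub_mem (pow_mem (E_mem_ratPS _ ⟨2, rfl⟩) 3)
    (pow_mem (E_mem_ratPS _ ⟨3, rfl⟩) 2))

/-- The q-expansion of the discriminant has rational coefficients. -/
theorem discriminant_isRat :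
    ∀ n, ∃ r : ℚ, (qExpansion 1 ModularForm.discriminant).coeff n = (r : ℂ) :=
  mem_ratPS_iff.mp discriminant_mem_ratPS

/-- Twisting level-one forms, natural-number weights, by strong induction. -/
theorem levelOne_twist_int (σ : ℂ ≃+* ℂ) : ∀ (k : ℤ) (φ : ModularForm 𝒮ℒ k),
    ∃ ψ : ModularForm 𝒮ℒ k, qExpansion 1 ψ = (qExpansion 1 φ).map (σ : ℂ →+* ℂ) := by
  -- the zero form
  have hzero : ∀ (k : ℤ) (φ : ModularForm 𝒮ℒ k), φ = 0 →
      ∃ ψ : ModularForm 𝒮ℒ k, qExpansion 1 ψ = (qExpansion 1 φ).map (σ : ℂ →+* ℂ) := by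
    rintro k φ rfl
    exact ⟨0, by simp [qExpansion_zero]⟩
  have hneg : ∀ (k : ℤ), k < 0 → ∀ φ : ModularForm 𝒮ℒ k,
      ∃ ψ : ModularForm 𝒮ℒ k, qExpansion 1 ψ = (qExpansion 1 φ).map (σ : ℂ →+* ℂ) :=
    fun k hk φ => hzero k φ (rank_zero_iff_forall_zero.mp (levelOne_neg_weight_rank_zero hk) φ)
  suffices H : ∀ (n : ℕ) (φ : ModularForm 𝒮ℒ (n : ℤ)),
      ∃ ψ : ModularForm 𝒮ℒ (n : ℤ), qExpansion 1 ψ = (qExpansion 1 φ).map (σ : ℂ →+* ℂ) by
    intro k φ
    rcases lt_or_ge k 0 with hk | hk
    · exact hneg k hk φ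
    · lift k to ℕ using hk
      exact H k φ
  intro n
  induction n using Nat.strong_induction_on with
  | _ n ih =>
    intro φ
    rcases Nat.even_or_odd n with hev | hodd
    · rcases Nat.lt_or_ge n 3 with hn3 | hn3
      · -- n = 0 or n = 2
        obtain rfl | rfl : n = 0 ∨ n = 2 := by
          rcases hev with ⟨m, rfl⟩; omega
        · -- weight 0: constants
          obtain ⟨c, hc⟩ := levelOne_weight_zero_const φ
          have hφ : (φ : ℍ → ℂ) = c • ⇑(1 : ModularForm 𝒮ℒ 0) := by
            rw [hc]; funext z; simp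
          refine ⟨σ c • (1 : ModularForm 𝒮ℒ 0), ?_⟩
          have h1 : qExpansion 1 (⇑(σ c • (1 : ModularForm 𝒮ℒ 0))) =
              σ c • qExpansion 1 (⇑(1 : ModularForm 𝒮ℒ 0)) :=
            ModularForm.qExpansion_smul one_pos one_mem_strictPeriods_SL (σ c)
              (1 : ModularForm 𝒮ℒ 0)
          have h2 : qExpansion 1 (φ : ℍ → ℂ) = c • qExpansion 1 (⇑(1 : ModularForm 𝒮ℒ 0)) := by
            rw [hφ]
            exact ModularForm.qExpansion_smul one_pos one_mem_strictPeriods_SL c
              (1 : ModularForm 𝒮ℒ 0)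
          rw [h1, h2, ModularForm.qExpansion_one]
          ext m
          simp [PowerSeries.coeff_one, apply_ite σ]
        · -- weight 2: zero
          exact hzero _ φ (rank_zero_iff_forall_zero.mp levelOne_weight_two_rank_zero φ)
      · -- even weight ≥ 4
        set a₀ : ℂ := (qExpansion 1 φ).coeff 0 with ha₀
        set g : ModularForm 𝒮ℒ (n : ℤ) := φ - a₀ • E hn3 with hg
        have hgq : qExpansion 1 g = qExpansion 1 φ - a₀ • qExpansion 1 (E hn3) := by
          rw [hg, FunLike.coe_sub, ModularForm.qExpansion_sub one_pos one_mem_strictPeriods_SL,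
            FunLike.coe_smul, ModularForm.qExpansion_smul one_pos one_mem_strictPeriods_SL]
        have hg0 : (qExpansion 1 g).coeff 0 = 0 := by
          rw [hgq, map_sub, PowerSeries.coeff_smul, E_qExpansion_coeff_zero hn3 hev]
          simp [ha₀]
        set h : ModularForm 𝒮ℒ ((n : ℤ) - 12) :=
          CuspForm.discriminantEquiv (toCuspForm g hg0) with hh
        have hgh : qExpansion 1 g = qExpansion 1 discriminant * qExpansion 1 h :=
          qExpansion_eq_qExpansion_discriminant_mul g hg0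
        -- twist of `h` by induction
        obtain ⟨ψh, hψh⟩ : ∃ ψ : ModularForm 𝒮ℒ ((n : ℤ) - 12),
            qExpansion 1 ψ = (qExpansion 1 h).map (σ : ℂ →+* ℂ) := by
          rcases Nat.lt_or_ge n 12 with h12 | h12
          · exact hneg _ (by omega) h
          · have hcast : ((n - 12 : ℕ) : ℤ) = (n : ℤ) - 12 := by omega
            obtain ⟨ψ', hψ'⟩ := ih (n - 12) (by omega) (ModularForm.mcast hcast.symm h rfl)
            exact ⟨ModularForm.mcast hcast ψ' rfl, hψ'⟩
        refine ⟨σ a₀ • E hn3 +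
          CuspForm.toModularFormₗ (CuspForm.ofMulDiscriminant ψh), ?_⟩
        have hprod : qExpansion 1
            (⇑(CuspForm.toModularFormₗ (CuspForm.ofMulDiscriminant ψh)) : ℍ → ℂ) =
            qExpansion 1 discriminant * qExpansion 1 ψh := by
          have : (⇑(CuspForm.toModularFormₗ (CuspForm.ofMulDiscriminant ψh)) : ℍ → ℂ) =
              ⇑CuspForm.discriminant * ⇑ψh := by
            funext z; rfl
          rw [this]
          exact ModularForm.qExpansion_mul_coe one_pos one_mem_strictPeriods_SL _ _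
        have hφq : qExpansion 1 φ = a₀ • qExpansion 1 (E hn3) +
            qExpansion 1 discriminant * qExpansion 1 h := by
          rw [← hgh, hgq]; ring
        rw [FunLike.coe_add, ModularForm.qExpansion_add one_pos one_mem_strictPeriods_SL,
          FunLike.coe_smul, ModularForm.qExpansion_smul one_pos one_mem_strictPeriods_SL,
          hprod, hψh, hφq, map_add, map_mul,
          map_eq_of_mem_ratPS _ discriminant_mem_ratPS]
        congr 1
        ext m
        have hE := congrArg (fun p : PowerSeries ℂ => p.coeff m)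
          (map_eq_of_mem_ratPS (σ : ℂ →+* ℂ) (E_mem_ratPS hn3 hev))
        simp only [PowerSeries.coeff_map] at hE
        simp only [PowerSeries.coeff_smul, PowerSeries.coeff_map, smul_eq_mul, map_mul]
        rw [hE]
        rfl
    · -- odd weight: zero
      exact hzero _ φ (levelOne_odd_weight_eq_zero (by exact_mod_cast hodd) φ)

/-- Part (A1): Galois conjugation of level-one modular forms. -/
theorem levelOne_twist (σ : ℂ ≃+* ℂ) {k : ℤ} (φ : ModularForm 𝒮ℒ k) :
    ∃ ψ : ModularForm 𝒮ℒ k, qExpansion 1 ψ = (qExpansion 1 φ).map (σ : ℂ →+* ℂ) :=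
  levelOne_twist_int σ k φ

end Fermat.Agent.S23Lib.LevelOne
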