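/-
S23 helper library: final reduction.  If weight-2 cusp forms on Γ₀(N) are stable under
Galois conjugation of q-expansions, then `S₂(Γ₀(N))` has an integral structure.
-/
import Mathlib
import Fermat.Agent.S23Lib.Denom
import Fermat.Agent.S23Lib.Descent
import Fermat.Agent.S23Lib.LevelOne

set_option autoImplicit false

namespace Fermat.Agent.S23Lib.Final

open CongruenceSubgroup ModularFormClass UpperHalfPlane

/-- (B) + (C): Galois-stability of q-expansions implies the integral structure. -/
theorem hasIntegralStructure_of_twist (N : ℕ) [NeZero N]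
    (htw : ∀ (σ : ℂ ≃+* ℂ) (f : CuspForm (Gamma0 N) 2), ∃ g : CuspForm (Gamma0 N) 2,
      ∀ n, qCoeff (⇑g) n = σ (qCoeff (⇑f) n)) :
    CuspForm.HasIntegralStructure N 2 := by
  unfold CuspForm.HasIntegralStructure
  have hfd : FiniteDimensional ℂ (CuspForm (Gamma0 N) 2) :=
    Descent.finiteDimensional_cuspForm N 2
  have hspan := Descent.rat_span_of_twist (V := CuspForm (Gamma0 N) 2)
    (fun n => Denom.coeffLin N n)
    (fun v hv => Fermat.Agent.S49Lib.eq_zero_of_qCoeff_eq_zero v hv)
    (fun σ f => htw σ f)
  rw [eq_top_iff, ← hspan, Submodule.span_le]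
  intro f hf
  exact Denom.mem_span_intLattice_of_rat f hf

/-- A function on `ℍ` whose q-expansion is supported on multiples of `N` with the
coefficients of `Δ` there has a `σ`-invariant q-expansion.  (Bridge for `B = Δ(Nτ)`.) -/
theorem map_qExpansion_eq_of_coeff (N : ℕ) (σ : ℂ →+* ℂ) (B : ℍ → ℂ)
    (hB : ∀ n : ℕ, (qExpansion 1 B).coeff n =
      if N ∣ n then (qExpansion 1 ModularForm.discriminant).coeff (n / N) else 0) :
    (qExpansion 1 B).map σ = qExpansion 1 B := by
  apply LevelOne.map_eq_of_mem_ratPS
  rw [LevelOne.mem_ratPS_iff]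
  intro n
  rw [hB n]
  split_ifs with h
  · exact LevelOne.discriminant_isRat (n / N)
  · exact ⟨0, by simp⟩

end Fermat.Agent.S23Lib.Final
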