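import Mathlib

namespace Fermat.Agent.S23Lib.AutC

open MvPolynomial

/-- Extend a ring automorphism of the polynomial ring on a transcendence basis to `ℂ`. -/
theorem exists_ringEquiv_extending {R : Type*} [Field R] [Algebra R ℂ] {ι : Type*} (v : ι → ℂ)
    (hv : IsTranscendenceBasis R v) (e : MvPolynomial ι R ≃+* MvPolynomial ι R) :
    ∃ σ : ℂ ≃+* ℂ, ∀ p : MvPolynomial ι R, σ (aeval v p) = aeval v (e p) := by
  have := IsAlgClosed.isAlgClosure_of_transcendence_basis v hv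
  let e' : Algebra.adjoin R (Set.range v) ≃+* Algebra.adjoin R (Set.range v) :=
    hv.1.aevalEquiv.symm.toRingEquiv.trans (e.trans hv.1.aevalEquiv.toRingEquiv)
  refine ⟨IsAlgClosure.equivOfEquiv ℂ ℂ e', fun p => ?_⟩
  have h1 : aeval v p = algebraMap (Algebra.adjoin R (Set.range v)) ℂ (hv.1.aevalEquiv p) :=
    (hv.1.algebraMap_aevalEquiv p).symm
  rw [h1, IsAlgClosure.equivOfEquiv_algebraMap]
  have h2 : e' (hv.1.aevalEquiv p) = hv.1.aevalEquiv (e p) := by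
    simp [e']
  rw [h2, hv.1.algebraMap_aevalEquiv]

/-- The shift automorphism `X i ↦ X i + c i` of a polynomial ring. -/
noncomputable def shiftEquiv {ι : Type*} (R : Type*) [CommRing R] (c : ι → R) :
    MvPolynomial ι R ≃+* MvPolynomial ι R :=
  (AlgEquiv.ofAlgHom (aeval fun i => X i + C (c i)) (aeval fun i => X i - C (c i))
    (by ext i; simp) (by ext i; simp)).toRingEquiv

theorem shiftEquiv_X {ι : Type*} (R : Type*) [CommRing R] (c : ι → R) (i : ι) :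
    shiftEquiv R c (X i) = X i + C (c i) := by
  simp [shiftEquiv]

theorem exists_ringEquiv_ne_of_transcendental {z : ℂ} (hz : Transcendental ℚ z) :
    ∃ σ : ℂ ≃+* ℂ, σ z ≠ z := by
  classical
  have hs : AlgebraicIndepOn ℚ id ({z} : Set ℂ) := by
    have : AlgebraicIndependent ℚ (fun x : ({z} : Set ℂ) => id (x : ℂ)) := by
      rw [algebraicIndependent_singleton_iff (⟨z, rfl⟩ : ({z} : Set ℂ))]
      exact hz
    exact this
  obtain ⟨t, hst, ht⟩ := exists_isTranscendenceBasis_superset hs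
  have hzt : z ∈ t := hst (Set.mem_singleton z)
  obtain ⟨σ, hσ⟩ := exists_ringEquiv_extending (R := ℚ) ((↑) : t → ℂ) ht
    (shiftEquiv ℚ (fun i : t => if i = ⟨z, hzt⟩ then (1 : ℚ) else 0))
  refine ⟨σ, ?_⟩
  have := hσ (X ⟨z, hzt⟩)
  rw [shiftEquiv_X] at this
  simp at this
  rw [this]
  simp

theorem exists_ringEquiv_ne_of_isAlgebraic {z : ℂ} (hz : IsAlgebraic ℚ z)
    (hzQ : z ∉ Set.range ((↑) : ℚ → ℂ)) : ∃ σ : ℂ ≃+* ℂ, σ z ≠ z := by
  classical
  let R := algebraicClosure ℚ ℂ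
  have hzR : z ∈ R := (mem_algebraicClosure_iff).mpr hz
  have hAC : IsAlgClosure ℚ (algebraicClosure ℚ ℂ) := algebraicClosure.isAlgClosure ℚ ℂ
  have hGal : IsGalois ℚ (algebraicClosure ℚ ℂ) := IsAlgClosure.isGalois ℚ (algebraicClosure ℚ ℂ)
  -- an automorphism of `R` moving `z`
  have : ∃ τ : R ≃ₐ[ℚ] R, τ ⟨z, hzR⟩ ≠ ⟨z, hzR⟩ := by
    by_contra hcon
    push Not at hcon
    have hbot : (⟨z, hzR⟩ : R) ∈ (⊥ : IntermediateField ℚ R) :=
      (InfiniteGalois.mem_bot_iff_fixed _).mpr hcon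
    rw [IntermediateField.mem_bot] at hbot
    obtain ⟨q, hq⟩ := hbot
    apply hzQ
    refine ⟨q, ?_⟩
    have := congrArg (Subtype.val) hq
    simpa using this
  obtain ⟨τ, hτ⟩ := this
  obtain ⟨s, hs⟩ := exists_isTranscendenceBasis (R := R) (A := ℂ)
  obtain ⟨σ, hσ⟩ := exists_ringEquiv_extending (R := R) ((↑) : s → ℂ) hs
    (MvPolynomial.mapEquiv s τ.toRingEquiv)
  refine ⟨σ, ?_⟩
  have := hσ (C ⟨z, hzR⟩)
  simp at this
  rw [this]
  intro h
  apply hτ
  exact Subtype.ext h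

/-- The fixed field of the ring automorphisms of `ℂ` is `ℚ`. -/
theorem exists_rat_of_forall_ringEquiv_fixed {z : ℂ} (h : ∀ σ : ℂ ≃+* ℂ, σ z = z) :
    ∃ q : ℚ, (q : ℂ) = z := by
  by_contra hq
  by_cases hz : IsAlgebraic ℚ z
  · obtain ⟨σ, hσ⟩ := exists_ringEquiv_ne_of_isAlgebraic hz (by rintro ⟨q, rfl⟩; exact hq ⟨q, rfl⟩)
    exact hσ (h σ)
  · obtain ⟨σ, hσ⟩ := exists_ringEquiv_ne_of_transcendental hz
    exact hσ (h σ)

end Fermat.Agent.S23Lib.AutC
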